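import Mathlib

/-!
# GATE-M (B0): coset systems and their operators on `Hom(Γ, A)`

`H` a group (e.g. `SL(2, ℤ)`), `emb : H →* G` an injective homomorphism into an ambient group
(e.g. `GL (Fin 2) ℝ`), `Γ₁ Γ₂ : Subgroup H`.  A *coset system* from `Γ₁` to `Γ₂` is a finite family
`a i ∈ G` with `a i * g = c g i * a (σ g i)` for `g ∈ Γ₂`, `c g i ∈ Γ₁`, `σ g` a permutation
(cocycle conditions included).  It defines `op : Hom(Γ₁, A) → Hom(Γ₂, A)`,
`op φ g = ∑ i, φ (c g i)` — restriction, corestriction (transfer), conjugation and Hecke operators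
are all of this form.

* `CosetSys.op` : the operator;
* `CosetSys.comp` / `op_comp` : composition = product system;
* `CosetSys.op_eq_of_equiv` : independence of the representatives (`a' (e i) = z * γ i * a i`,
  `z` central, `γ i ∈ Γ₁`);
* `CosetSys.op_eq_card_smul` : a system of representatives inside `Γ₁ = Γ₂` gives multiplication by
  the number of representatives;
* `CosetSys.ofInj` : the cocycle conditions follow from the relation when the cosets `Γ₁ a i` are
  pairwise distinct.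
-/

set_option autoImplicit false

namespace Fermat.Agent.GM.B

variable {H G : Type*} [Group H] [Group G]

/-- a coset system from `Γ₁` to `Γ₂` -/
structure CosetSys (emb : H →* G) (Γ₁ Γ₂ : Subgroup H) where
  ι : Type
  [fin : Fintype ι]
  a : ι → G
  σ : Γ₂ → Equiv.Perm ι
  c : Γ₂ → ι → Γ₁
  rel : ∀ (g : Γ₂) (i : ι), a i * emb (g : H) = emb ((c g i : Γ₁) : H) * a (σ g i)
  hσ : ∀ (g h : Γ₂) (i : ι), σ (g * h) i = σ h (σ g i)
  hc : ∀ (g h : Γ₂) (i : ι), c (g * h) i = c g i * c h (σ g i)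

attribute [instance] CosetSys.fin

namespace CosetSys

variable {emb : H →* G} {Γ₁ Γ₂ Γ₃ : Subgroup H}

section Op

variable (S : CosetSys emb Γ₁ Γ₂) (A : Type*) [AddCommGroup A]

/-- the value of the operator -/
noncomputable def opFun (φ : Additive Γ₁ →+ A) : Additive Γ₂ →+ A :=
  AddMonoidHom.mk' (fun g => ∑ i : S.ι, φ (Additive.ofMul (S.c (Additive.toMul g) i)))
    (by
      intro g h
      show ∑ i : S.ι, φ (Additive.ofMul (S.c (Additive.toMul g * Additive.toMul h) i)) = _
      simp_rw [S.hc, ofMul_mul, map_add]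
      rw [Finset.sum_add_distrib]
      congr 1
      exact Equiv.sum_comp (S.σ (Additive.toMul g))
        (fun i => φ (Additive.ofMul (S.c (Additive.toMul h) i))))

/-- **the operator of a coset system** on `Hom(Γ₁, A) → Hom(Γ₂, A)` -/
noncomputable def op : (Additive Γ₁ →+ A) →+ (Additive Γ₂ →+ A) where
  toFun := S.opFun A
  map_zero' := by
    refine AddMonoidHom.ext fun g => ?_
    show ∑ i : S.ι, (0 : Additive Γ₁ →+ A) _ = 0
    simp
  map_add' φ ψ := by
    refine AddMonoidHom.ext fun g => ?_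
    show ∑ i : S.ι, (φ + ψ) _ = (∑ i : S.ι, φ _) + ∑ i : S.ι, ψ _
    simp [Finset.sum_add_distrib]

variable {A}

theorem op_apply (φ : Additive Γ₁ →+ A) (g : Γ₂) :
    S.op A φ (Additive.ofMul g) = ∑ i : S.ι, φ (Additive.ofMul (S.c g i)) := rfl

theorem op_comp_hom {B : Type*} [AddCommGroup B] (f : A →+ B) (φ : Additive Γ₁ →+ A) :
    S.op B (f.comp φ) = f.comp (S.op A φ) := by
  refine AddMonoidHom.ext fun g => ?_
  obtain ⟨g, rfl⟩ : ∃ g' : Γ₂, Additive.ofMul g' = g := ⟨Additive.toMul g, rfl⟩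
  rw [op_apply, AddMonoidHom.comp_apply, op_apply, map_sum]
  rfl

end Op

section Basic

variable (S : CosetSys emb Γ₁ Γ₂)

theorem c_one (i : S.ι) : S.c 1 i = 1 := by
  obtain ⟨j, rfl⟩ := (S.σ 1).surjective i
  have := S.hc 1 1 j
  rw [mul_one] at this
  exact mul_eq_left.mp this.symm

theorem σ_one (i : S.ι) : S.σ 1 i = i := by
  have := S.hσ 1 1 i
  rw [mul_one] at this
  exact ((S.σ 1).injective this).symm

theorem σ_pow (g : Γ₂) (r : ℕ) (i : S.ι) : S.σ (g ^ r) i = ((S.σ g) ^ r) i := by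
  induction r generalizing i with
  | zero => rw [pow_zero, pow_zero, S.σ_one]; rfl
  | succ r ih => rw [pow_succ', S.hσ, ih, pow_succ, Equiv.Perm.mul_apply]

theorem phi_c_pow {A : Type*} [AddCommGroup A] (φ : Additive Γ₁ →+ A) (g : Γ₂) (r : ℕ)
    (i : S.ι) :
    φ (Additive.ofMul (S.c (g ^ r) i))
      = ∑ k ∈ Finset.range r, φ (Additive.ofMul (S.c g (((S.σ g) ^ k) i))) := by
  induction r generalizing i with
  | zero =>
    rw [pow_zero, S.c_one, Finset.sum_range_zero]
    exact map_zero φ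
  | succ r ih =>
    rw [pow_succ', S.hc, ofMul_mul, map_add, ih, Finset.sum_range_succ', add_comm]
    congr 1

end Basic

section Comp

variable (S : CosetSys emb Γ₁ Γ₂) (S' : CosetSys emb Γ₂ Γ₃)

/-- the permutation of the product system -/
def compPerm (g : Γ₃) : Equiv.Perm (S.ι × S'.ι) where
  toFun p := (S.σ (S'.c g p.2) p.1, S'.σ g p.2)
  invFun p := ((S.σ (S'.c g ((S'.σ g).symm p.2))).symm p.1, (S'.σ g).symm p.2)
  left_inv p := by simp
  right_inv p := by simp

/-- **composition of coset systems** (first `S`, then `S'`): representatives `a i * a' j`. -/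
def comp : CosetSys emb Γ₁ Γ₃ where
  ι := S.ι × S'.ι
  a p := S.a p.1 * S'.a p.2
  σ g := compPerm S S' g
  c g p := S.c (S'.c g p.2) p.1
  rel g p := by
    show S.a p.1 * S'.a p.2 * emb (g : H) = _
    rw [mul_assoc, S'.rel g p.2, ← mul_assoc, S.rel (S'.c g p.2) p.1, mul_assoc]
    rfl
  hσ g h p := by
    show (S.σ (S'.c (g * h) p.2) p.1, S'.σ (g * h) p.2) = _
    rw [S'.hc, S.hσ, S'.hσ]
    rfl
  hc g h p := by
    show S.c (S'.c (g * h) p.2) p.1 = _
    rw [S'.hc, S.hc]
    rfl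

theorem op_comp {A : Type*} [AddCommGroup A] (φ : Additive Γ₁ →+ A) :
    (S.comp S').op A φ = S'.op A (S.op A φ) := by
  refine AddMonoidHom.ext fun g => ?_
  obtain ⟨g, rfl⟩ : ∃ g' : Γ₃, Additive.ofMul g' = g := ⟨Additive.toMul g, rfl⟩
  rw [op_apply, op_apply]
  simp_rw [op_apply]
  show ∑ p : S.ι × S'.ι, φ (Additive.ofMul (S.c (S'.c g p.2) p.1)) = _
  rw [Fintype.sum_prod_type, Finset.sum_comm]

end Comp

section Equiv

variable (S S' : CosetSys emb Γ₁ Γ₂)

/-- **Independence of the representatives.**  If `a' (e i) = z * γ i * a i` with `z` central and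
`γ i ∈ Γ₁`, compatibly with the permutations, the two systems define the same operator. -/
theorem op_eq_of_equiv (hemb : Function.Injective emb) (e : S.ι ≃ S'.ι) (z : G)
    (hz : ∀ x : G, z * x = x * z) (γ : S.ι → Γ₁)
    (hrep : ∀ i, S'.a (e i) = z * emb ((γ i : Γ₁) : H) * S.a i)
    (hσ : ∀ g i, S'.σ g (e i) = e (S.σ g i))
    {A : Type*} [AddCommGroup A] (φ : Additive Γ₁ →+ A) :
    S'.op A φ = S.op A φ := by
  have hc : ∀ (g : Γ₂) (i : S.ι), S'.c g (e i) = γ i * S.c g i * (γ (S.σ g i))⁻¹ := by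
    intro g i
    have h1 := S'.rel g (e i)
    rw [hσ, hrep, hrep, mul_assoc, mul_assoc, S.rel g i] at h1
    -- z * (γ_i * (c * a)) = c' * (z * (γ' * a))
    have h2 : z * (emb ((γ i : Γ₁) : H) * (emb ((S.c g i : Γ₁) : H) * S.a (S.σ g i))) =
        z * (emb ((S'.c g (e i) : Γ₁) : H) * (emb ((γ (S.σ g i) : Γ₁) : H) * S.a (S.σ g i))) := by
      rw [h1, mul_assoc z, ← mul_assoc (emb _) z, ← hz, mul_assoc z]
    have h3 := mul_left_cancel h2
    rw [← mul_assoc, ← mul_assoc] at h3
    have h4 := mul_right_cancel h3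
    rw [← map_mul, ← map_mul] at h4
    have h5 := hemb h4
    apply Subtype.ext
    have h6 : ((γ i * S.c g i : Γ₁) : H) = ((S'.c g (e i) * γ (S.σ g i) : Γ₁) : H) := h5
    have h7 : γ i * S.c g i = S'.c g (e i) * γ (S.σ g i) := Subtype.ext h6
    rw [h7, mul_inv_cancel_right]
  refine AddMonoidHom.ext fun g => ?_
  obtain ⟨g, rfl⟩ : ∃ g' : Γ₂, Additive.ofMul g' = g := ⟨Additive.toMul g, rfl⟩
  rw [op_apply, op_apply, ← Equiv.sum_comp e]
  simp_rw [hc, ofMul_mul, ofMul_inv, map_add, map_neg]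
  rw [Finset.sum_add_distrib, Finset.sum_add_distrib, Finset.sum_neg_distrib,
    Equiv.sum_comp (S.σ g) (fun i => φ (Additive.ofMul (γ i)))]
  abel

end Equiv

section Inner

/-- **A system of representatives inside the group, up to a central element** (`Γ₁ = Γ₂`,
`a i = z * emb (r i)`, `r i ∈ Γ`, `z` central) acts as multiplication by the number of
representatives. -/
theorem op_eq_card_smul {Γ : Subgroup H} (S : CosetSys emb Γ Γ) (hemb : Function.Injective emb)
    (z : G) (hz : ∀ x : G, z * x = x * z)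
    (r : S.ι → Γ) (hr : ∀ i, S.a i = z * emb ((r i : Γ) : H))
    {A : Type*} [AddCommGroup A] (φ : Additive Γ →+ A) :
    S.op A φ = Fintype.card S.ι • φ := by
  have hc : ∀ (g : Γ) (i : S.ι), S.c g i = r i * g * (r (S.σ g i))⁻¹ := by
    intro g i
    have h1 := S.rel g i
    rw [hr, hr, ← mul_assoc (emb _) z, ← hz, mul_assoc, mul_assoc] at h1
    have h1' := mul_left_cancel h1
    rw [← map_mul, ← map_mul] at h1'
    have h2 := hemb h1'
    have h3 : r i * g = S.c g i * r (S.σ g i) := Subtype.ext h2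
    rw [h3, mul_inv_cancel_right]
  refine AddMonoidHom.ext fun g => ?_
  obtain ⟨g, rfl⟩ : ∃ g' : Γ, Additive.ofMul g' = g := ⟨Additive.toMul g, rfl⟩
  rw [op_apply]
  simp_rw [hc, ofMul_mul, ofMul_inv, map_add, map_neg]
  rw [Finset.sum_add_distrib, Finset.sum_add_distrib, Finset.sum_neg_distrib,
    Equiv.sum_comp (S.σ g) (fun i => φ (Additive.ofMul (r i))), Finset.sum_const,
    Finset.card_univ, AddMonoidHom.smul_apply]
  abel

end Inner

section Single

/-- the system with a single representative `a`, normalising `Γ₂` into `Γ₁` through the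
homomorphism `c` -/
def single (emb : H →* G) {Γ₁ Γ₂ : Subgroup H} (a : G) (c : Γ₂ →* Γ₁)
    (h : ∀ g : Γ₂, a * emb (g : H) = emb ((c g : Γ₁) : H) * a) : CosetSys emb Γ₁ Γ₂ where
  ι := Unit
  a _ := a
  σ _ := 1
  c g _ := c g
  rel g _ := h g
  hσ _ _ _ := rfl
  hc g h _ := map_mul c g h

theorem single_op_apply (a : G) (c : Γ₂ →* Γ₁)
    (h : ∀ g : Γ₂, a * emb (g : H) = emb ((c g : Γ₁) : H) * a)
    {A : Type*} [AddCommGroup A] (φ : Additive Γ₁ →+ A) (g : Γ₂) :
    (single emb a c h).op A φ (Additive.ofMul g) = φ (Additive.ofMul (c g)) := by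
  rw [op_apply]
  show ∑ _i : Unit, φ (Additive.ofMul (c g)) = _
  simp

end Single

section Twist

/-- **twisting** a coset system: new representatives `w * emb (γ i) * a i`, same permutations;
the new cocycle `c'` takes values in a subgroup `Γ₁'`, `c' = w (γ_i c γ_{σ i}⁻¹) w⁻¹`. -/
def twist (S : CosetSys emb Γ₁ Γ₂) (hemb : Function.Injective emb) (w : G) (γ : S.ι → Γ₁)
    {Γ₁' : Subgroup H} (c' : Γ₂ → S.ι → Γ₁')
    (hc' : ∀ g i, emb ((c' g i : Γ₁') : H) * w
        = w * emb (((γ i * S.c g i * (γ (S.σ g i))⁻¹ : Γ₁)) : H)) :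
    CosetSys emb Γ₁' Γ₂ where
  ι := S.ι
  a i := w * emb ((γ i : Γ₁) : H) * S.a i
  σ := S.σ
  c := c'
  rel g i := by
    calc w * emb ((γ i : Γ₁) : H) * S.a i * emb (g : H)
        = w * emb ((γ i : Γ₁) : H) * (emb ((S.c g i : Γ₁) : H) * S.a (S.σ g i)) := by
          rw [mul_assoc, S.rel g i]
      _ = w * emb (((γ i * S.c g i * (γ (S.σ g i))⁻¹ : Γ₁)) : H)
            * (emb ((γ (S.σ g i) : Γ₁) : H) * S.a (S.σ g i)) := by
          simp only [Subgroup.coe_mul, Subgroup.coe_inv, map_mul, map_inv]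
          group
      _ = emb ((c' g i : Γ₁') : H) * (w * emb ((γ (S.σ g i) : Γ₁) : H) * S.a (S.σ g i)) := by
          rw [← hc']
          simp only [mul_assoc]
  hσ := S.hσ
  hc g h i := by
    have h1 := hc' (g * h) i
    have h2 := hc' g i
    have h3 := hc' h (S.σ g i)
    have e : (γ i * S.c (g * h) i * (γ (S.σ (g * h) i))⁻¹ : Γ₁)
        = (γ i * S.c g i * (γ (S.σ g i))⁻¹) *
          (γ (S.σ g i) * S.c h (S.σ g i) * (γ (S.σ h (S.σ g i)))⁻¹) := by
      rw [S.hc, S.hσ]
      group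
    rw [e, Subgroup.coe_mul, map_mul, ← mul_assoc, ← h2, mul_assoc, ← h3, ← mul_assoc] at h1
    have h4 := mul_right_cancel h1
    rw [← map_mul] at h4
    exact Subtype.ext (hemb h4)

end Twist

section Distinct

/-- the cosets `Γ₁ a i` are pairwise distinct -/
def Distinct (S : CosetSys emb Γ₁ Γ₂) : Prop :=
  ∀ (i j : S.ι) (γ : Γ₁), S.a i = emb ((γ : Γ₁) : H) * S.a j → i = j

/-- **Independence of the representatives, coset form.**  If the cosets of `S'` are pairwise
distinct, the compatibility of the permutations is automatic. -/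
theorem op_eq_of_cosets (S S' : CosetSys emb Γ₁ Γ₂) (hemb : Function.Injective emb)
    (hS' : S'.Distinct) (e : S.ι ≃ S'.ι) (z : G)
    (hz : ∀ x : G, z * x = x * z) (γ : S.ι → Γ₁)
    (hrep : ∀ i, S'.a (e i) = z * emb ((γ i : Γ₁) : H) * S.a i)
    {A : Type*} [AddCommGroup A] (φ : Additive Γ₁ →+ A) :
    S'.op A φ = S.op A φ := by
  refine op_eq_of_equiv S S' hemb e z hz γ hrep ?_ φ
  intro g i
  refine hS' _ _ ((S'.c g (e i))⁻¹ * (γ i * S.c g i * (γ (S.σ g i))⁻¹)) ?_
  have h1 := S'.rel g (e i)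
  rw [hrep, mul_assoc, S.rel g i] at h1
  have hz' : ∀ x y : G, x * (z * y) = z * (x * y) := fun x y => by
    rw [← mul_assoc, ← hz, mul_assoc]
  rw [hrep, Subgroup.coe_mul, map_mul, mul_assoc, Subgroup.coe_inv, map_inv, eq_inv_mul_iff_mul_eq,
    ← h1]
  rw [Subgroup.coe_mul, Subgroup.coe_mul, Subgroup.coe_inv, map_mul, map_mul, map_inv]
  rw [mul_assoc z, mul_assoc z, hz']
  congr 1
  group

end Distinct

end CosetSys

end Fermat.Agent.GM.B
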