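import Mathlib
import Fermat.Agent.GM.B.System

/-!
# GATE-M (B0'): complements on coset systems

Projection lemmas (proved generically, so that concrete proofs can REWRITE instead of asking the
kernel to compare two different concrete systems), sums of systems, and the comparison lemma with
orbit-wise constant central elements.
-/

set_option autoImplicit false

namespace Fermat.Agent.GM.B

namespace CosetSys

variable {H G : Type*} [Group H] [Group G] {emb : H →* G} {Γ₁ Γ₂ Γ₃ : Subgroup H}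

section Proj

theorem comp_a (S : CosetSys emb Γ₁ Γ₂) (S' : CosetSys emb Γ₂ Γ₃) (i : S.ι) (j : S'.ι) :
    (S.comp S').a (i, j) = S.a i * S'.a j := rfl

theorem comp_σ (S : CosetSys emb Γ₁ Γ₂) (S' : CosetSys emb Γ₂ Γ₃) (g : Γ₃) (i : S.ι) (j : S'.ι) :
    (S.comp S').σ g (i, j) = (S.σ (S'.c g j) i, S'.σ g j) := rfl

theorem comp_c (S : CosetSys emb Γ₁ Γ₂) (S' : CosetSys emb Γ₂ Γ₃) (g : Γ₃) (i : S.ι) (j : S'.ι) :
    (S.comp S').c g (i, j) = S.c (S'.c g j) i := rfl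

theorem single_a (a : G) (c : Γ₂ →* Γ₁)
    (h : ∀ g : Γ₂, a * emb (g : H) = emb ((c g : Γ₁) : H) * a) (u : Unit) :
    (single emb a c h).a u = a := rfl

theorem single_c (a : G) (c : Γ₂ →* Γ₁)
    (h : ∀ g : Γ₂, a * emb (g : H) = emb ((c g : Γ₁) : H) * a) (g : Γ₂) (u : Unit) :
    (single emb a c h).c g u = c g := rfl

variable (S : CosetSys emb Γ₁ Γ₂) (hemb : Function.Injective emb) (w : G) (γ : S.ι → Γ₁)
    {Γ₁' : Subgroup H} (c' : Γ₂ → S.ι → Γ₁')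
    (hc' : ∀ g i, emb ((c' g i : Γ₁') : H) * w
        = w * emb (((γ i * S.c g i * (γ (S.σ g i))⁻¹ : Γ₁)) : H))

theorem twist_a (i : S.ι) :
    (S.twist hemb w γ c' hc').a i = w * emb ((γ i : Γ₁) : H) * S.a i := rfl

theorem twist_σ (g : Γ₂) (i : S.ι) : (S.twist hemb w γ c' hc').σ g i = S.σ g i := rfl

theorem twist_c (g : Γ₂) (i : S.ι) : (S.twist hemb w γ c' hc').c g i = c' g i := rfl

end Proj

section SingleTwist

/-- **a single representative followed by a twist is another twist** (same base system `S`),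
provided `a₀ (w₁ γ₁ i) = κ i (w₂ γ₂ i)` with `κ i` in the new source group. -/
theorem op_single_comp_twist (S : CosetSys emb Γ₁ Γ₂) (hemb : Function.Injective emb)
    {Γ' Γ'' : Subgroup H}
    (w₁ : G) (γ₁ : S.ι → Γ₁) (c₁ : Γ₂ → S.ι → Γ')
    (hc₁ : ∀ g i, emb ((c₁ g i : Γ') : H) * w₁
        = w₁ * emb (((γ₁ i * S.c g i * (γ₁ (S.σ g i))⁻¹ : Γ₁)) : H))
    (w₂ : G) (γ₂ : S.ι → Γ₁) (c₂ : Γ₂ → S.ι → Γ'')
    (hc₂ : ∀ g i, emb ((c₂ g i : Γ'') : H) * w₂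
        = w₂ * emb (((γ₂ i * S.c g i * (γ₂ (S.σ g i))⁻¹ : Γ₁)) : H))
    (a₀ : G) (c₀ : Γ' →* Γ'')
    (h₀ : ∀ g : Γ', a₀ * emb (g : H) = emb ((c₀ g : Γ'') : H) * a₀)
    (κ : S.ι → Γ'')
    (hκ : ∀ i, a₀ * (w₁ * emb ((γ₁ i : Γ₁) : H)) = emb ((κ i : Γ'') : H) * (w₂ * emb ((γ₂ i : Γ₁) : H)))
    {A : Type*} [AddCommGroup A] (z : Additive Γ'' →+ A) :
    (S.twist hemb w₁ γ₁ c₁ hc₁).op A ((single emb a₀ c₀ h₀).op A z)
      = (S.twist hemb w₂ γ₂ c₂ hc₂).op A z := by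
  rw [← op_comp]
  refine op_eq_of_equiv (S.twist hemb w₂ γ₂ c₂ hc₂)
    ((single emb a₀ c₀ h₀).comp (S.twist hemb w₁ γ₁ c₁ hc₁)) hemb
    (Equiv.punitProd S.ι).symm 1 (fun x => by rw [one_mul, mul_one]) κ ?_ ?_ z
  · intro i
    show a₀ * (w₁ * emb ((γ₁ i : Γ₁) : H) * S.a i)
      = 1 * emb ((κ i : Γ'') : H) * (w₂ * emb ((γ₂ i : Γ₁) : H) * S.a i)
    rw [one_mul, ← mul_assoc a₀, ← mul_assoc (emb _), hκ i]
  · intro g i
    rfl

end SingleTwist

end CosetSys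

end Fermat.Agent.GM.B
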