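import Mathlib
import Fermat.Agent.GM.B.System
import Fermat.Agent.GM.B.System2

/-!
# GATE-M (B0''): distinct cosets — generic lemmas

* `twist_distinct` : a twist of a distinct system is distinct;
* `comp_distinct_of_inner` : (transversal inside `Γ₂`) followed by a distinct system;
* `comp_distinct_of_rel` : a distinct system followed by a transversal, under a lifting hypothesis;
* `op_eq_of_contained` : two distinct systems with the same number of representatives, the cosets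
  of the first contained in the cosets of the second, define the same operator.
-/

set_option autoImplicit false

namespace Fermat.Agent.GM.B

namespace CosetSys

variable {H G : Type*} [Group H] [Group G] {emb : H →* G} {Γ₁ Γ₂ Γ₃ : Subgroup H}

/-- distinctness modulo a (possibly larger) subgroup `Γ` -/
def DistinctMod (S : CosetSys emb Γ₁ Γ₂) (Γ : Subgroup H) : Prop :=
  ∀ (i j : S.ι) (γ : Γ), S.a i = emb ((γ : Γ) : H) * S.a j → i = j

theorem DistinctMod.distinct {S : CosetSys emb Γ₁ Γ₂} (h : S.DistinctMod Γ₁) : S.Distinct := h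

theorem twist_distinct (S : CosetSys emb Γ₁ Γ₂) (hemb : Function.Injective emb) (w : G)
    (γ : S.ι → Γ₁) {Γ₁' : Subgroup H} (c' : Γ₂ → S.ι → Γ₁')
    (hc' : ∀ g i, emb ((c' g i : Γ₁') : H) * w
        = w * emb (((γ i * S.c g i * (γ (S.σ g i))⁻¹ : Γ₁)) : H))
    (hS : S.Distinct)
    (hconj : ∀ κ : Γ₁', ∃ κ' : Γ₁, emb ((κ : Γ₁') : H) * w = w * emb ((κ' : Γ₁) : H)) :
    (S.twist hemb w γ c' hc').Distinct := by
  intro i j κ h
  obtain ⟨κ', hκ'⟩ := hconj κ
  have h0 : w * emb ((γ i : Γ₁) : H) * S.a i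
      = emb ((κ : Γ₁') : H) * (w * emb ((γ j : Γ₁) : H) * S.a j) := h
  rw [← mul_assoc, ← mul_assoc, hκ', mul_assoc w, mul_assoc w, mul_assoc w] at h0
  have h1 := mul_left_cancel h0
  refine hS i j ((γ i)⁻¹ * κ' * γ j) ?_
  rw [Subgroup.coe_mul, Subgroup.coe_mul, Subgroup.coe_inv, map_mul, map_mul, map_inv,
    mul_assoc, mul_assoc, eq_inv_mul_iff_mul_eq, h1, mul_assoc]

/-- a transversal `emb (r i)`, `r i ∈ Γ₂`, pairwise distinct modulo `Γ₁ ≤ Γ₂`, followed by a
system `S'` whose cosets are distinct modulo `Γ₂` -/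
theorem comp_distinct_of_inner (S : CosetSys emb Γ₁ Γ₂) (S' : CosetSys emb Γ₂ Γ₃)
    (hle : Γ₁ ≤ Γ₂) (r : S.ι → Γ₂) (hr : ∀ i, S.a i = emb ((r i : Γ₂) : H))
    (hS : S.Distinct) (hS' : S'.Distinct) : (S.comp S').Distinct := by
  rintro ⟨i, j⟩ ⟨i', j'⟩ κ h
  rw [comp_a, comp_a, hr, hr, ← mul_assoc] at h
  have hj : j = j' := by
    refine hS' j j' ((r i)⁻¹ * ⟨(κ : H), hle κ.2⟩ * r i') ?_
    rw [Subgroup.coe_mul, Subgroup.coe_mul, Subgroup.coe_inv, map_mul, map_mul, map_inv,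
      mul_assoc, mul_assoc, eq_inv_mul_iff_mul_eq, h, mul_assoc]
  subst hj
  have h1 := mul_right_cancel h
  have hi : i = i' := hS i i' κ (by rw [hr, hr, h1])
  subst hi
  rfl

/-- a system `S` (`Γ₁ → Γ₁`) followed by a transversal `emb (r j)`, `r j ∈ Γ₂ ≥ Γ₁`:
distinct provided the cosets of `S` are distinct modulo `Γ₂` and the relation of `S` extends to
`Γ₂` with a cocycle detecting `Γ₁`. -/
theorem comp_distinct_of_rel (S : CosetSys emb Γ₁ Γ₁) (S' : CosetSys emb Γ₁ Γ₂)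
    (hemb : Function.Injective emb) (hle : Γ₁ ≤ Γ₂)
    (r : S'.ι → Γ₂) (hr : ∀ j, S'.a j = emb ((r j : Γ₂) : H))
    (hS : S.DistinctMod Γ₂) (hS' : S'.Distinct)
    (hext : ∀ (h : Γ₂) (i : S.ι), ∃ (i' : S.ι) (c : Γ₂),
      S.a i * emb ((h : Γ₂) : H) = emb ((c : Γ₂) : H) * S.a i' ∧ ((c : H) ∈ Γ₁ → (h : H) ∈ Γ₁)) :
    (S.comp S').Distinct := by
  rintro ⟨i, j⟩ ⟨i', j'⟩ κ h
  rw [comp_a, comp_a, hr, hr] at h
  -- a_i r_j = κ a_i' r_j'
  obtain ⟨i'', c, hrel, hdet⟩ := hext (r j * (r j')⁻¹) i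
  have h1 : S.a i * emb (((r j * (r j')⁻¹ : Γ₂)) : H) = emb ((κ : Γ₁) : H) * S.a i' := by
    rw [Subgroup.coe_mul, Subgroup.coe_inv, map_mul, map_inv, ← mul_assoc, h, mul_assoc, mul_assoc,
      mul_inv_cancel, mul_one]
  rw [hrel] at h1
  -- c a_i'' = κ a_i'
  have hi'' : i'' = i' := by
    refine hS i'' i' (c⁻¹ * ⟨(κ : H), hle κ.2⟩) ?_
    rw [Subgroup.coe_mul, Subgroup.coe_inv, map_mul, map_inv, mul_assoc, eq_inv_mul_iff_mul_eq, h1]
  subst hi''
  have hc : (c : H) = (κ : H) := hemb (mul_right_cancel h1)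
  have hmem : ((r j * (r j')⁻¹ : Γ₂) : H) ∈ Γ₁ := hdet (by rw [hc]; exact κ.2)
  have hj : j = j' := by
    refine hS' j j' ⟨_, hmem⟩ ?_
    rw [hr, hr, ← map_mul]
    congr 1
    show ((r j : Γ₂) : H) = ((r j * (r j')⁻¹ : Γ₂) : H) * ((r j' : Γ₂) : H)
    rw [← Subgroup.coe_mul, inv_mul_cancel_right]
  subst hj
  rw [← mul_assoc] at h
  have h2 := mul_right_cancel h
  have hi : i = i'' := hS i i'' ⟨(κ : H), hle κ.2⟩ h2
  subst hi
  rfl

/-- **Two distinct systems with the same number of representatives, the cosets of the first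
contained in the cosets of the second, define the same operator.** -/
theorem op_eq_of_contained (S S' : CosetSys emb Γ₁ Γ₂) (hemb : Function.Injective emb)
    (hS : S.Distinct) (hS' : S'.Distinct) (hcard : Fintype.card S.ι = Fintype.card S'.ι)
    (f : S.ι → S'.ι) (z : G) (hz : ∀ x : G, z * x = x * z) (γ : S.ι → Γ₁)
    (hrep : ∀ i, S'.a (f i) = z * emb ((γ i : Γ₁) : H) * S.a i)
    {A : Type*} [AddCommGroup A] (φ : Additive Γ₁ →+ A) :
    S'.op A φ = S.op A φ := by
  have hinj : Function.Injective f := by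
    intro i i' hii
    have h1 := hrep i
    rw [hii, hrep i', mul_assoc, mul_assoc] at h1
    have h2 := mul_left_cancel h1
    refine (hS i' i ((γ i')⁻¹ * γ i) ?_).symm
    rw [Subgroup.coe_mul, Subgroup.coe_inv, map_mul, map_inv, mul_assoc, eq_inv_mul_iff_mul_eq, h2]
  have hbij : Function.Bijective f :=
    (Fintype.bijective_iff_injective_and_card f).mpr ⟨hinj, hcard⟩
  exact op_eq_of_cosets S S' hemb hS' (Equiv.ofBijective f hbij) z hz γ hrep φ

end CosetSys

end Fermat.Agent.GM.B
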