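import Mathlib
import Fermat.Agent.GM.B.System
import Fermat.Agent.S16_helper49.HeckeHom

/-!
# GATE-M (B1): the Hecke coset system `T_ℓ` at level `N` (`ℓ ∤ N`)

`heckeSys hℓN : CosetSys (mapGL ℝ) Γ₀(N) Γ₀(N)` with representatives `heckeRep ℓ x`,
`x ∈ P¹(𝔽_ℓ)`, built from helper49's `cT`; its operator is `cohT hℓN`.
The cosets `Γ₀(N) · heckeRep ℓ x` are pairwise distinct (even modulo `SL(2, ℤ)`).
-/

set_option autoImplicit false

open scoped MatrixGroups
open CongruenceSubgroup Matrix Matrix.SpecialLinearGroup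
open P2MW.S_ModularForm_heckeT_slash_eq_self_of_mem_Gamma0.ModularForm.HeckeSlashInvariance
open P2MW.S_ModularForm_heckeT_slash_eq_self_of_mem_Gamma0.ModularForm
open Fermat.Agent.S16_helper49

namespace Fermat.Agent.GM.B

/-- the ambient embedding `SL(2, ℤ) → GL(2, ℝ)` -/
noncomputable abbrev embR : SL(2, ℤ) →* GL (Fin 2) ℝ := mapGL ℝ

theorem embR_injective : Function.Injective embR := mapGL_injective (R := ℤ) (S := ℝ)

variable {N : ℕ} {ℓ : ℕ} [Fact ℓ.Prime]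

/-- **the Hecke coset system** of `T_ℓ` at level `N` -/
noncomputable def heckeSys (hℓN : ¬ ℓ ∣ N) : CosetSys embR (Gamma0 N) (Gamma0 N) where
  ι := OnePoint (ZMod ℓ)
  a := heckeRep ℓ
  σ g := MulAction.toPerm (redMatrix ℓ (g : SL(2, ℤ)))
  c := cT hℓN
  rel g x := cT_rel hℓN g x
  hσ g h x := by
    show redMatrix ℓ ((g * h : Gamma0 N) : SL(2, ℤ)) • x
      = redMatrix ℓ (h : SL(2, ℤ)) • redMatrix ℓ (g : SL(2, ℤ)) • x
    rw [Subgroup.coe_mul, redMatrix_mul, mul_smul]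
  hc g h x := cT_mul hℓN g h x

theorem heckeSys_op (hℓN : ¬ ℓ ∣ N) (A : Type*) [AddCommGroup A] :
    (heckeSys hℓN).op A = cohT hℓN A := by
  refine AddMonoidHom.ext fun φ => AddMonoidHom.ext fun g => ?_
  rfl

theorem heckeSys_card (hℓN : ¬ ℓ ∣ N) : Fintype.card (heckeSys hℓN).ι = ℓ + 1 := by
  have : Fintype.card (OnePoint (ZMod ℓ)) = Fintype.card (Option (ZMod ℓ)) := rfl
  show Fintype.card (OnePoint (ZMod ℓ)) = ℓ + 1
  rw [this, Fintype.card_option, ZMod.card]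

end Fermat.Agent.GM.B
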