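import Mathlib
import Fermat.Agent.GM.B.Hecke
import Fermat.Agent.GM.Amalgam.Main

/-!
# GATE-M (B2): the degeneracy maps between levels `N` and `N q` and `β ∘ α`
-/

set_option autoImplicit false
set_option linter.unusedSectionVars false

open scoped MatrixGroups
open CongruenceSubgroup Matrix Matrix.SpecialLinearGroup
open P2MW.S_ModularForm_heckeT_slash_eq_self_of_mem_Gamma0.ModularForm.HeckeSlashInvariance
open P2MW.S_ModularForm_heckeT_slash_eq_self_of_mem_Gamma0.ModularForm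
open Fermat.Agent.S16_helper49
open Fermat.Agent.GM.Amalgam
open scoped OnePoint

namespace Fermat.Agent.GM.B

variable {N q : ℕ} [Fact q.Prime]

/-- `δ = diag(q, 1)` -/
noncomputable abbrev dlt (q : ℕ) : GL (Fin 2) ℝ := heckeDiagMatrix q

theorem q_ne_zero' : q ≠ 0 := (Fact.out : q.Prime).ne_zero

/-- key entry relation: `δ k = m δ` forces `k₁₀ = q m₁₀` -/
theorem lower_left_of_dlt_rel (k m : SL(2, ℤ)) (h : dlt q * embR k = embR m * dlt q) :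
    k 1 0 = q * m 1 0 := by
  have hq : q ≠ 0 := q_ne_zero'
  have h1 := congrArg (fun M : GL (Fin 2) ℝ => (M : Matrix (Fin 2) (Fin 2) ℝ) 1 0) h
  simp [hq, Matrix.mul_apply, Fin.sum_univ_two] at h1
  have h2 : ((k 1 0 : ℤ) : ℝ) = ((q * m 1 0 : ℤ) : ℝ) := by
    push_cast
    linarith
  exact_mod_cast h2

theorem dlt_rel_degenDelta (g : Gamma0 (N * q)) :
    dlt q * embR (g : SL(2, ℤ)) = embR ((degenDelta N q g : Gamma0 N) : SL(2, ℤ)) * dlt q := by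
  have hq : q ≠ 0 := q_ne_zero'
  obtain ⟨h00, h01, h10, h11⟩ := degenDelta_entries g
  have h10' : ((((degenDelta N q g : Gamma0 N) : SL(2, ℤ)) 1 0 : ℤ) : ℝ) * q
      = (((g : SL(2, ℤ)) 1 0 : ℤ) : ℝ) := by
    rw [← h10]; push_cast; ring
  ext i j
  fin_cases i <;> fin_cases j <;>
    simp [hq, Matrix.mul_apply, Fin.sum_univ_two, h00, h01, h11, h10']
  · ring

/-- the coset system of `res : Hom(Γ₀(N)) → Hom(Γ₀(N q))` -/
noncomputable def resSys (N q : ℕ) : CosetSys embR (Gamma0 N) (Gamma0 (N * q)) :=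
  CosetSys.single embR 1 (degenOne N q) (fun g => by rw [one_mul, mul_one, degenOne_coe])

/-- the coset system of `res_δ : Hom(Γ₀(N)) → Hom(Γ₀(N q))`, `φ ↦ φ (δ · δ⁻¹)` -/
noncomputable def resDSys (N q : ℕ) [Fact q.Prime] : CosetSys embR (Gamma0 N) (Gamma0 (N * q)) :=
  CosetSys.single embR (dlt q) (degenDelta N q) dlt_rel_degenDelta

/-! ### explicit representatives

`b₀ d₀ : ℤ` with `q d₀ - N b₀ = 1`. -/

section Reps

variable (N q) (b₀ d₀ : ℤ) (hbd : (q : ℤ) * d₀ - N * b₀ = 1)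

/-- `γ₀ = (q, b₀; N, d₀)` -/
def gamC : SL(2, ℤ) := mkZ (q : ℤ) b₀ (N : ℤ) d₀ (by linarith)

/-- `r_j = (1, j + b₀; N, N j + d₀ q)`, with `δ r_j = γ₀ α_j` -/
def repC (j : ℕ) : SL(2, ℤ) :=
  mkZ 1 ((j : ℤ) + b₀) (N : ℤ) (N * j + d₀ * q) (by linarith)

/-- `γ'_∞ = (d₀, b₀; N, q)` -/
def gamD : SL(2, ℤ) := mkZ d₀ b₀ (N : ℤ) (q : ℤ) (by linarith)

/-- `s_∞ = (q d₀, b₀; N, 1)`, with `δ γ'_∞ α_∞ = q s_∞` -/
def repDinf : SL(2, ℤ) := mkZ ((q : ℤ) * d₀) b₀ (N : ℤ) 1 (by linarith)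

/-- `s_j = (1, j; 0, 1)`, with `δ α_j = q s_j` -/
def repDfin (j : ℕ) : SL(2, ℤ) := mkZ 1 (j : ℤ) 0 1 (by ring)

theorem gamC_mem : gamC N q b₀ d₀ hbd ∈ Gamma0 N := mem_Gamma0_of_dvd (by simp [gamC])
theorem repC_mem (j : ℕ) : repC N q b₀ d₀ hbd j ∈ Gamma0 N := mem_Gamma0_of_dvd (by simp [repC])
theorem gamD_mem : gamD N q b₀ d₀ hbd ∈ Gamma0 N := mem_Gamma0_of_dvd (by simp [gamD])
theorem repDinf_mem : repDinf N q b₀ d₀ hbd ∈ Gamma0 N := mem_Gamma0_of_dvd (by simp [repDinf])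
theorem repDfin_mem (j : ℕ) : repDfin j ∈ Gamma0 N := mem_Gamma0_of_dvd (by simp [repDfin])

/-- `γ_x` for `cores`: `γ_∞ = 1`, `γ_j = γ₀` -/
def gC (x : OnePoint (ZMod q)) : Gamma0 N :=
  x.elim 1 (fun _ => ⟨gamC N q b₀ d₀ hbd, gamC_mem N q b₀ d₀ hbd⟩)

/-- the transversal `r_x` of `Γ₀(N q) \ Γ₀(N)`: `r_∞ = 1`, `r_j = (1, j + b₀; N, N j + d₀ q)` -/
def rC (x : OnePoint (ZMod q)) : Gamma0 N :=
  x.elim 1 (fun j => ⟨repC N q b₀ d₀ hbd j.val, repC_mem N q b₀ d₀ hbd j.val⟩)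

/-- `γ'_y` for `cores_δ`: `γ'_∞ = (d₀, b₀; N, q)`, `γ'_j = 1` -/
def gD (y : OnePoint (ZMod q)) : Gamma0 N :=
  y.elim ⟨gamD N q b₀ d₀ hbd, gamD_mem N q b₀ d₀ hbd⟩ (fun _ => 1)

/-- `s_y`: `s_∞ = (q d₀, b₀; N, 1)`, `s_j = (1, j; 0, 1)` -/
def sD (y : OnePoint (ZMod q)) : Gamma0 N :=
  y.elim ⟨repDinf N q b₀ d₀ hbd, repDinf_mem N q b₀ d₀ hbd⟩
    (fun j => ⟨repDfin j.val, repDfin_mem N j.val⟩)

/-- the central scalar `q` -/
noncomputable def zq : GL (Fin 2) ℝ :=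
  Matrix.GeneralLinearGroup.scalar (Fin 2) (Units.mk0 (q : ℝ) (by exact_mod_cast q_ne_zero'))

theorem zq_comm (x : GL (Fin 2) ℝ) : zq q * x = x * zq q :=
  Matrix.GeneralLinearGroup.scalar_commute _ x

/-- **(A)** `δ r_x = γ_x α_x` -/
theorem dlt_mul_rC (x : OnePoint (ZMod q)) :
    dlt q * embR ((rC N q b₀ d₀ hbd x : Gamma0 N) : SL(2, ℤ))
      = embR ((gC N q b₀ d₀ hbd x : Gamma0 N) : SL(2, ℤ)) * heckeRep q x := by
  have hq : q ≠ 0 := q_ne_zero'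
  induction x using OnePoint.rec with
  | infty =>
    show dlt q * embR ((1 : Gamma0 N) : SL(2, ℤ)) = embR ((1 : Gamma0 N) : SL(2, ℤ)) * heckeRep q ∞
    rw [Subgroup.coe_one, map_one, mul_one, one_mul, heckeRep_infty]
  | coe j =>
    show dlt q * embR (repC N q b₀ d₀ hbd j.val) = embR (gamC N q b₀ d₀ hbd) * heckeRep q j
    rw [heckeRep_coe]
    ext a b
    fin_cases a <;> fin_cases b <;>
      (simp [hq, Matrix.mul_apply, Fin.sum_univ_two, repC, gamC]; try ring)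

/-- **(B)** `δ γ'_y α_y = q s_y` -/
theorem dlt_mul_gD (y : OnePoint (ZMod q)) :
    dlt q * (embR ((gD N q b₀ d₀ hbd y : Gamma0 N) : SL(2, ℤ)) * heckeRep q y)
      = zq q * embR ((sD N q b₀ d₀ hbd y : Gamma0 N) : SL(2, ℤ)) := by
  have hq : q ≠ 0 := q_ne_zero'
  induction y using OnePoint.rec with
  | infty =>
    show dlt q * (embR (gamD N q b₀ d₀ hbd) * heckeRep q ∞) = zq q * embR (repDinf N q b₀ d₀ hbd)
    rw [heckeRep_infty]
    ext a b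
    fin_cases a <;> fin_cases b <;>
      simp [hq, zq, Matrix.mul_apply, Fin.sum_univ_two, repDinf, gamD, Matrix.natCast_apply] <;> ring
  | coe j =>
    show dlt q * (embR ((1 : Gamma0 N) : SL(2, ℤ)) * heckeRep q j) = zq q * embR (repDfin j.val)
    rw [Subgroup.coe_one, map_one, one_mul, heckeRep_coe]
    ext a b
    fin_cases a <;> fin_cases b <;>
      simp [hq, zq, Matrix.mul_apply, Fin.sum_univ_two, repDfin, Matrix.natCast_apply]

end Reps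

/-! ### the corestriction systems -/

section Systems

variable (hqN : ¬ q ∣ N) (b₀ d₀ : ℤ) (hbd : (q : ℤ) * d₀ - N * b₀ = 1)

theorem mem_Gamma0_mul_of_dlt_rel (k m : SL(2, ℤ)) (hm : m ∈ Gamma0 N)
    (h : dlt q * embR k = embR m * dlt q) : k ∈ Gamma0 (N * q) := by
  apply mem_Gamma0_of_dvd
  rw [lower_left_of_dlt_rel k m h]
  obtain ⟨t, ht⟩ := dvd_of_mem_Gamma0 (⟨m, hm⟩ : Gamma0 N)
  have ht' : m 1 0 = N * t := ht
  exact ⟨t, by rw [ht']; push_cast; ring⟩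

/-- `δ (r_x g r_{xg}⁻¹) = (γ_x c_T(g,x) γ_{xg}⁻¹) δ` -/
theorem coresC_rel (g : Gamma0 N) (x : OnePoint (ZMod q)) :
    dlt q * embR ((rC N q b₀ d₀ hbd x * g *
        (rC N q b₀ d₀ hbd ((heckeSys hqN).σ g x))⁻¹ : Gamma0 N) : SL(2, ℤ))
      = embR ((gC N q b₀ d₀ hbd x * (heckeSys hqN).c g x *
        (gC N q b₀ d₀ hbd ((heckeSys hqN).σ g x))⁻¹ : Gamma0 N) : SL(2, ℤ)) * dlt q := by
  have hA := dlt_mul_rC N q b₀ d₀ hbd x
  have hA' := dlt_mul_rC N q b₀ d₀ hbd ((heckeSys hqN).σ g x)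
  have hT := (heckeSys hqN).rel g x
  have eR : embR ((rC N q b₀ d₀ hbd x : Gamma0 N) : SL(2, ℤ))
      = (dlt q)⁻¹ * (embR ((gC N q b₀ d₀ hbd x : Gamma0 N) : SL(2, ℤ)) * (heckeSys hqN).a x) := by
    rw [eq_inv_mul_iff_mul_eq]; exact hA
  have eR' : embR ((rC N q b₀ d₀ hbd ((heckeSys hqN).σ g x) : Gamma0 N) : SL(2, ℤ))
      = (dlt q)⁻¹ * (embR ((gC N q b₀ d₀ hbd ((heckeSys hqN).σ g x) : Gamma0 N) : SL(2, ℤ))
          * (heckeSys hqN).a ((heckeSys hqN).σ g x)) := by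
    rw [eq_inv_mul_iff_mul_eq]; exact hA'
  have eC : embR (((heckeSys hqN).c g x : Gamma0 N) : SL(2, ℤ))
      = (heckeSys hqN).a x * embR (g : SL(2, ℤ)) * ((heckeSys hqN).a ((heckeSys hqN).σ g x))⁻¹ := by
    rw [eq_mul_inv_iff_mul_eq]; exact hT.symm
  simp only [Subgroup.coe_mul, Subgroup.coe_inv, map_mul, map_inv]
  rw [eR, eR', eC]
  group

/-- the cocycle of `cores` -/
noncomputable def coresC (g : Gamma0 N) (x : OnePoint (ZMod q)) : Gamma0 (N * q) :=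
  ⟨((rC N q b₀ d₀ hbd x * g * (rC N q b₀ d₀ hbd ((heckeSys hqN).σ g x))⁻¹ : Gamma0 N) : SL(2, ℤ)),
    mem_Gamma0_mul_of_dlt_rel _ _ (SetLike.coe_mem _) (coresC_rel hqN b₀ d₀ hbd g x)⟩

/-- **the coset system of `cores : Hom(Γ₀(N q)) → Hom(Γ₀(N))`** (transfer along the transversal
`r_x`, `x ∈ P¹(𝔽_q)`) -/
noncomputable def coresSys : CosetSys embR (Gamma0 (N * q)) (Gamma0 N) :=
  (heckeSys hqN).twist embR_injective (dlt q)⁻¹ (gC N q b₀ d₀ hbd) (coresC hqN b₀ d₀ hbd)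
    (fun g x => by
      have h := coresC_rel hqN b₀ d₀ hbd g x
      rw [eq_inv_mul_iff_mul_eq, ← mul_assoc]
      exact (eq_mul_inv_iff_mul_eq.mpr h.symm).symm ▸ rfl)

/-- `δ (γ'_y c_T(g,y) γ'_{yg}⁻¹) = (s_y g s_{yg}⁻¹) δ` -/
theorem coresD_rel (g : Gamma0 N) (y : OnePoint (ZMod q)) :
    dlt q * embR ((gD N q b₀ d₀ hbd y * (heckeSys hqN).c g y *
        (gD N q b₀ d₀ hbd ((heckeSys hqN).σ g y))⁻¹ : Gamma0 N) : SL(2, ℤ))
      = embR ((sD N q b₀ d₀ hbd y * g *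
        (sD N q b₀ d₀ hbd ((heckeSys hqN).σ g y))⁻¹ : Gamma0 N) : SL(2, ℤ)) * dlt q := by
  have hB := dlt_mul_gD N q b₀ d₀ hbd y
  have hB' := dlt_mul_gD N q b₀ d₀ hbd ((heckeSys hqN).σ g y)
  have hT := (heckeSys hqN).rel g y
  have eΓ : embR ((gD N q b₀ d₀ hbd y : Gamma0 N) : SL(2, ℤ))
      = (dlt q)⁻¹ * (zq q * embR ((sD N q b₀ d₀ hbd y : Gamma0 N) : SL(2, ℤ)))
        * ((heckeSys hqN).a y)⁻¹ := by
    rw [eq_mul_inv_iff_mul_eq, eq_inv_mul_iff_mul_eq]; exact hB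
  have eΓ' : embR ((gD N q b₀ d₀ hbd ((heckeSys hqN).σ g y) : Gamma0 N) : SL(2, ℤ))
      = (dlt q)⁻¹ * (zq q * embR ((sD N q b₀ d₀ hbd ((heckeSys hqN).σ g y) : Gamma0 N) : SL(2, ℤ)))
        * ((heckeSys hqN).a ((heckeSys hqN).σ g y))⁻¹ := by
    rw [eq_mul_inv_iff_mul_eq, eq_inv_mul_iff_mul_eq]; exact hB'
  have eC : embR (((heckeSys hqN).c g y : Gamma0 N) : SL(2, ℤ))
      = (heckeSys hqN).a y * embR (g : SL(2, ℤ)) * ((heckeSys hqN).a ((heckeSys hqN).σ g y))⁻¹ := by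
    rw [eq_mul_inv_iff_mul_eq]; exact hT.symm
  simp only [Subgroup.coe_mul, Subgroup.coe_inv, map_mul, map_inv]
  rw [eΓ, eΓ', eC]
  have hz : ∀ X : GL (Fin 2) ℝ, zq q * X * (zq q)⁻¹ = X := fun X => by
    rw [zq_comm, mul_inv_cancel_right]
  calc _ = zq q * (embR ((sD N q b₀ d₀ hbd y : Gamma0 N) : SL(2, ℤ)) * embR (g : SL(2, ℤ)) *
        (embR ((sD N q b₀ d₀ hbd ((heckeSys hqN).σ g y) : Gamma0 N) : SL(2, ℤ)))⁻¹) * (zq q)⁻¹
        * dlt q := by group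
    _ = _ := by rw [hz]

/-- the cocycle of `cores_δ` -/
noncomputable def coresDC (g : Gamma0 N) (y : OnePoint (ZMod q)) : Gamma0 (N * q) :=
  ⟨((gD N q b₀ d₀ hbd y * (heckeSys hqN).c g y *
      (gD N q b₀ d₀ hbd ((heckeSys hqN).σ g y))⁻¹ : Gamma0 N) : SL(2, ℤ)),
    mem_Gamma0_mul_of_dlt_rel _ _ (SetLike.coe_mem _) (coresD_rel hqN b₀ d₀ hbd g y)⟩

/-- **the coset system of `cores_δ : Hom(Γ₀(N q)) → Hom(Γ₀(N))`** (the adjoint of `res_δ`);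
representatives `γ'_y α_y` -/
noncomputable def coresDSys : CosetSys embR (Gamma0 (N * q)) (Gamma0 N) :=
  (heckeSys hqN).twist embR_injective 1 (gD N q b₀ d₀ hbd) (coresDC hqN b₀ d₀ hbd)
    (fun g y => by rw [mul_one, one_mul]; rfl)

/-! ### the four compositions -/

variable {A : Type*} [AddCommGroup A]

/-- **`cores ∘ res_δ = T_q`** -/
theorem cores_resD (φ : Additive (Gamma0 N) →+ A) :
    (coresSys hqN b₀ d₀ hbd).op A ((resDSys N q).op A φ) = cohT hqN A φ := by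
  rw [← CosetSys.op_comp, ← heckeSys_op]
  refine CosetSys.op_eq_of_equiv (heckeSys hqN) _ embR_injective
    (Equiv.punitProd _).symm 1 (fun x => by rw [one_mul, mul_one]) (gC N q b₀ d₀ hbd) ?_ ?_ φ
  · intro x
    show dlt q * ((dlt q)⁻¹ * embR ((gC N q b₀ d₀ hbd x : Gamma0 N) : SL(2, ℤ)) * (heckeSys hqN).a x)
      = 1 * embR ((gC N q b₀ d₀ hbd x : Gamma0 N) : SL(2, ℤ)) * (heckeSys hqN).a x
    group
  · intro g x
    rfl

/-- **`cores_δ ∘ res = T_q`** -/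
theorem coresD_res (φ : Additive (Gamma0 N) →+ A) :
    (coresDSys hqN b₀ d₀ hbd).op A ((resSys N q).op A φ) = cohT hqN A φ := by
  rw [← CosetSys.op_comp, ← heckeSys_op]
  refine CosetSys.op_eq_of_equiv (heckeSys hqN) _ embR_injective
    (Equiv.punitProd _).symm 1 (fun x => by rw [one_mul, mul_one]) (gD N q b₀ d₀ hbd) ?_ ?_ φ
  · intro y
    show 1 * (1 * embR ((gD N q b₀ d₀ hbd y : Gamma0 N) : SL(2, ℤ)) * (heckeSys hqN).a y)
      = 1 * embR ((gD N q b₀ d₀ hbd y : Gamma0 N) : SL(2, ℤ)) * (heckeSys hqN).a y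
    group
  · intro g y
    rfl

theorem card_unit_prod_onePoint : Fintype.card (Unit × OnePoint (ZMod q)) = q + 1 := by
  have : Fintype.card (OnePoint (ZMod q)) = Fintype.card (Option (ZMod q)) := rfl
  rw [Fintype.card_prod, Fintype.card_unit, one_mul, this, Fintype.card_option, ZMod.card]

/-- **`cores ∘ res = q + 1`** -/
theorem cores_res (φ : Additive (Gamma0 N) →+ A) :
    (coresSys hqN b₀ d₀ hbd).op A ((resSys N q).op A φ) = (q + 1) • φ := by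
  rw [← CosetSys.op_comp]
  rw [CosetSys.op_eq_card_smul ((resSys N q).comp (coresSys hqN b₀ d₀ hbd)) embR_injective 1
    (fun x => by rw [one_mul, mul_one])
    (fun p : Unit × OnePoint (ZMod q) => rC N q b₀ d₀ hbd p.2) ?_ φ]
  · congr 1
    exact card_unit_prod_onePoint
  · intro p
    show 1 * ((dlt q)⁻¹ * embR ((gC N q b₀ d₀ hbd p.2 : Gamma0 N) : SL(2, ℤ)) * (heckeSys hqN).a p.2)
      = 1 * embR ((rC N q b₀ d₀ hbd p.2 : Gamma0 N) : SL(2, ℤ))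
    have hA := dlt_mul_rC N q b₀ d₀ hbd p.2
    rw [one_mul, one_mul, mul_assoc, inv_mul_eq_iff_eq_mul]
    exact hA.symm

/-- **`cores_δ ∘ res_δ = q + 1`** -/
theorem coresD_resD (φ : Additive (Gamma0 N) →+ A) :
    (coresDSys hqN b₀ d₀ hbd).op A ((resDSys N q).op A φ) = (q + 1) • φ := by
  rw [← CosetSys.op_comp]
  rw [CosetSys.op_eq_card_smul ((resDSys N q).comp (coresDSys hqN b₀ d₀ hbd)) embR_injective
    (zq q) (zq_comm q)
    (fun p : Unit × OnePoint (ZMod q) => sD N q b₀ d₀ hbd p.2) ?_ φ]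
  · congr 1
    exact card_unit_prod_onePoint
  · intro p
    show dlt q * (1 * embR ((gD N q b₀ d₀ hbd p.2 : Gamma0 N) : SL(2, ℤ)) * (heckeSys hqN).a p.2)
      = zq q * embR ((sD N q b₀ d₀ hbd p.2 : Gamma0 N) : SL(2, ℤ))
    rw [one_mul]
    exact dlt_mul_gD N q b₀ d₀ hbd p.2

end Systems

end Fermat.Agent.GM.B
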