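import Mathlib
import Fermat.Prelude.Def_ModularCurve_PeriodMap
import Fermat.Agent.GM.B.Hecke
import Fermat.Agent.GJ.J2.HeckePar

/-!
# GATE-M (B3): coset operators preserve parabolic homomorphisms

For ANY coset system `S : CosetSys (mapGL ℝ) Γ₁ Γ₂` between subgroups of `SL(2, ℤ)` (restriction,
conjugation, transfer, Hecke operators, and their composites), `S.op A` maps parabolic
homomorphisms to parabolic homomorphisms, and homomorphisms killing elements of finite order to
such.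
-/

set_option autoImplicit false

open scoped MatrixGroups
open CongruenceSubgroup Matrix Matrix.SpecialLinearGroup ModularCurve.Period
open Fermat.Agent.GJ.J2.Lat

namespace Fermat.Agent.GM.B

namespace CosetSys

variable {H G : Type*} [Group H] [Group G] {emb : H →* G} {Γ₁ Γ₂ : Subgroup H}

/-- Abstract form: if `P₂` is stable under positive powers, and `c g i` satisfies `P₁` whenever
`g` satisfies `P₂` and `i` is fixed by `σ g`, then `op` maps homomorphisms killing `P₁` to
homomorphisms killing `P₂`. -/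
theorem op_kills (S : CosetSys emb Γ₁ Γ₂) (P₁ : Γ₁ → Prop) (P₂ : Γ₂ → Prop)
    (hpow : ∀ g (r : ℕ), 0 < r → P₂ g → P₂ (g ^ r))
    (hfix : ∀ g i, S.σ g i = i → P₂ g → P₁ (S.c g i))
    {A : Type*} [AddCommGroup A]
    (φ : Additive Γ₁ →+ A) (hφ : ∀ g, P₁ g → φ (Additive.ofMul g) = 0)
    (g : Γ₂) (hg : P₂ g) : S.op A φ (Additive.ofMul g) = 0 := by
  classical
  rw [op_apply]
  refine sum_eq_zero_of_cycle_sums (S.σ g) _ ?_
  intro i r hr hi
  rw [← S.phi_c_pow φ g r i]
  refine hφ _ (hfix _ _ ?_ (hpow g r hr hg))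
  rw [S.σ_pow, hi]

end CosetSys

variable {Γ₁ Γ₂ : Subgroup SL(2, ℤ)} {A : Type*} [AddCommGroup A]

/-- **coset operators preserve parabolic homomorphisms** -/
theorem op_isParabolicHom (S : CosetSys embR Γ₁ Γ₂) (φ : Additive Γ₁ →+ A)
    (hφ : IsParabolicHom Γ₁ φ) : IsParabolicHom Γ₂ (S.op A φ) := by
  intro g hg
  refine S.op_kills
    (fun g => ((g : SL(2, ℤ)) : Matrix (Fin 2) (Fin 2) ℤ).trace ^ 2 = 4)
    (fun g => ((g : SL(2, ℤ)) : Matrix (Fin 2) (Fin 2) ℤ).trace ^ 2 = 4) ?_ ?_ φ hφ g hg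
  · intro g r _ hg
    rw [Subgroup.coe_pow]
    exact trace_sq_pow_SL _ hg r
  · intro g i hi hg
    have h := S.rel g i
    rw [hi] at h
    show ((S.c g i : SL(2, ℤ)) : Matrix (Fin 2) (Fin 2) ℤ).trace ^ 2 = 4
    rw [trace_eq_of_conj _ _ (S.a i) h]
    exact hg

/-- **coset operators preserve the homomorphisms killing all elements of finite order** -/
theorem op_kills_finOrder (S : CosetSys embR Γ₁ Γ₂) (φ : Additive Γ₁ →+ A)
    (hφ : ∀ g : Γ₁, IsOfFinOrder g → φ (Additive.ofMul g) = 0) (g : Γ₂) (hg : IsOfFinOrder g) :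
    S.op A φ (Additive.ofMul g) = 0 := by
  refine S.op_kills (fun g => IsOfFinOrder g) (fun g => IsOfFinOrder g) ?_ ?_ φ hφ g hg
  · intro g r _ hg
    exact hg.pow
  · intro g i hi hg
    have h := S.rel g i
    rw [hi] at h
    have h1 : IsOfFinOrder (g : SL(2, ℤ)) :=
      (Submonoid.isOfFinOrder_coe (H := Γ₂.toSubmonoid) (x := g)).mpr hg
    exact (Submonoid.isOfFinOrder_coe (H := Γ₁.toSubmonoid) (x := S.c g i)).mp
      (isOfFinOrder_of_conj _ _ (S.a i) h h1)

/-- the operator of a coset system on parabolic homomorphisms (ℤ-linear) -/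
noncomputable def opPar (S : CosetSys embR Γ₁ Γ₂) (A : Type*) [AddCommGroup A] :
    parabolicHoms ℤ Γ₁ A →+ parabolicHoms ℤ Γ₂ A where
  toFun φ := ⟨S.op A φ.1, op_isParabolicHom S φ.1 φ.2⟩
  map_zero' := by
    apply Subtype.ext
    show S.op A (0 : Additive Γ₁ →+ A) = 0
    exact map_zero _
  map_add' φ ψ := by
    apply Subtype.ext
    show S.op A (φ.1 + ψ.1) = S.op A φ.1 + S.op A ψ.1
    exact map_add _ _ _

@[simp]
theorem opPar_coe (S : CosetSys embR Γ₁ Γ₂) (φ : parabolicHoms ℤ Γ₁ A) :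
    ((opPar S A φ : parabolicHoms ℤ Γ₂ A) : Additive Γ₂ →+ A) = S.op A φ.1 := rfl

end Fermat.Agent.GM.B
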