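import Mathlib
import Fermat.Agent.GM.B.Degeneracy
import Fermat.Agent.GM.B.Par

/-!
# GATE-M (B): the degeneracy maps `α = (res, res_δ)`, `β = (cores, cores_δ)` and `β ∘ α`

For a prime `q ∤ N`, on `Hom(Γ₀(·), A)` (any coefficient group `A`) and on the parabolic lattices
`Λ_M = parabolicHoms ℤ Γ₀(M) A`:

* `res, resD : Hom(Γ₀(N), A) →+ Hom(Γ₀(N q), A)` — precomposition with helper65's `degenOne`
  (inclusion) and `degenDelta` (`g ↦ δ g δ⁻¹`, `δ = diag(q, 1)`);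
* `cores, coresD : Hom(Γ₀(N q), A) →+ Hom(Γ₀(N), A)` — the transfer, and the adjoint of `resD`;
* `cores ∘ res = coresD ∘ resD = q + 1`, `cores ∘ resD = coresD ∘ res = T_q` (`cohT hqN`);
* all four preserve parabolic homomorphisms; `alphaP`, `betaP` and
  `betaP_alphaP : β (α (x, y)) = ((q+1) x + T_q y, T_q x + (q+1) y)`.
-/

set_option autoImplicit false

open scoped MatrixGroups
open CongruenceSubgroup Matrix Matrix.SpecialLinearGroup ModularCurve.Period
open Fermat.Agent.S16_helper49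
open Fermat.Agent.GM.Amalgam

namespace Fermat.Agent.GM.B

variable {N q : ℕ} [Fact q.Prime]

theorem exists_bezout (hqN : ¬ q ∣ N) : ∃ p : ℤ × ℤ, (q : ℤ) * p.2 - N * p.1 = 1 := by
  have hcop : Nat.Coprime q N := (Nat.Prime.coprime_iff_not_dvd Fact.out).mpr hqN
  have h : IsCoprime (q : ℤ) (N : ℤ) := Nat.isCoprime_iff_coprime.mpr hcop
  obtain ⟨u, v, huv⟩ := h
  exact ⟨(-v, u), by show (q : ℤ) * u - N * (-v) = 1; linarith⟩

/-- a Bézout pair `(b₀, d₀)`, `q d₀ - N b₀ = 1` -/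
noncomputable def bez (hqN : ¬ q ∣ N) : ℤ × ℤ := (exists_bezout hqN).choose

theorem bez_spec (hqN : ¬ q ∣ N) : (q : ℤ) * (bez hqN).2 - N * (bez hqN).1 = 1 :=
  (exists_bezout hqN).choose_spec

/-- the chosen system for `cores` -/
noncomputable def coresSys' (hqN : ¬ q ∣ N) : CosetSys embR (Gamma0 (N * q)) (Gamma0 N) :=
  coresSys hqN (bez hqN).1 (bez hqN).2 (bez_spec hqN)

/-- the chosen system for `cores_δ` -/
noncomputable def coresDSys' (hqN : ¬ q ∣ N) : CosetSys embR (Gamma0 (N * q)) (Gamma0 N) :=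
  coresDSys hqN (bez hqN).1 (bez hqN).2 (bez_spec hqN)

section Hom

variable (A : Type*) [AddCommGroup A]

/-- restriction `Hom(Γ₀(N), A) → Hom(Γ₀(N q), A)` -/
noncomputable def res (N q : ℕ) : (Additive (Gamma0 N) →+ A) →+ (Additive (Gamma0 (N * q)) →+ A) :=
  (resSys N q).op A

/-- `φ ↦ φ (δ · δ⁻¹)` : `Hom(Γ₀(N), A) → Hom(Γ₀(N q), A)` -/
noncomputable def resD (N q : ℕ) [Fact q.Prime] :
    (Additive (Gamma0 N) →+ A) →+ (Additive (Gamma0 (N * q)) →+ A) :=
  (resDSys N q).op A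

/-- corestriction (transfer) `Hom(Γ₀(N q), A) → Hom(Γ₀(N), A)` -/
noncomputable def cores (hqN : ¬ q ∣ N) :
    (Additive (Gamma0 (N * q)) →+ A) →+ (Additive (Gamma0 N) →+ A) :=
  (coresSys' hqN).op A

/-- the adjoint of `resD` : `Hom(Γ₀(N q), A) → Hom(Γ₀(N), A)` -/
noncomputable def coresD (hqN : ¬ q ∣ N) :
    (Additive (Gamma0 (N * q)) →+ A) →+ (Additive (Gamma0 N) →+ A) :=
  (coresDSys' hqN).op A

variable {A}

omit [Fact q.Prime] in
theorem res_apply (φ : Additive (Gamma0 N) →+ A) (g : Gamma0 (N * q)) :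
    res A N q φ (Additive.ofMul g) = φ (Additive.ofMul (degenOne N q g)) :=
  CosetSys.single_op_apply _ _ _ φ g

theorem resD_apply (φ : Additive (Gamma0 N) →+ A) (g : Gamma0 (N * q)) :
    resD A N q φ (Additive.ofMul g) = φ (Additive.ofMul (degenDelta N q g)) :=
  CosetSys.single_op_apply _ _ _ φ g

theorem cores_apply (hqN : ¬ q ∣ N) (ψ : Additive (Gamma0 (N * q)) →+ A) (g : Gamma0 N) :
    cores A hqN ψ (Additive.ofMul g)
      = ∑ x : OnePoint (ZMod q),
          ψ (Additive.ofMul (coresC hqN (bez hqN).1 (bez hqN).2 (bez_spec hqN) g x)) := rfl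

theorem coresD_apply (hqN : ¬ q ∣ N) (ψ : Additive (Gamma0 (N * q)) →+ A) (g : Gamma0 N) :
    coresD A hqN ψ (Additive.ofMul g)
      = ∑ x : OnePoint (ZMod q),
          ψ (Additive.ofMul (coresDC hqN (bez hqN).1 (bez hqN).2 (bez_spec hqN) g x)) := rfl

/-- **`cores ∘ res = q + 1`** -/
theorem cores_comp_res (hqN : ¬ q ∣ N) (φ : Additive (Gamma0 N) →+ A) :
    cores A hqN (res A N q φ) = (q + 1) • φ := cores_res hqN _ _ _ φ

/-- **`cores_δ ∘ res_δ = q + 1`** -/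
theorem coresD_comp_resD (hqN : ¬ q ∣ N) (φ : Additive (Gamma0 N) →+ A) :
    coresD A hqN (resD A N q φ) = (q + 1) • φ := coresD_resD hqN _ _ _ φ

/-- **`cores ∘ res_δ = T_q`** -/
theorem cores_comp_resD (hqN : ¬ q ∣ N) (φ : Additive (Gamma0 N) →+ A) :
    cores A hqN (resD A N q φ) = cohT hqN A φ := cores_resD hqN _ _ _ φ

/-- **`cores_δ ∘ res = T_q`** -/
theorem coresD_comp_res (hqN : ¬ q ∣ N) (φ : Additive (Gamma0 N) →+ A) :
    coresD A hqN (res A N q φ) = cohT hqN A φ := coresD_res hqN _ _ _ φ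

end Hom

/-! ### on the parabolic lattices -/

section Par

variable (A : Type*) [AddCommGroup A]

noncomputable def resP (N q : ℕ) :
    parabolicHoms ℤ (Gamma0 N) A →+ parabolicHoms ℤ (Gamma0 (N * q)) A := opPar (resSys N q) A

noncomputable def resDP (N q : ℕ) [Fact q.Prime] :
    parabolicHoms ℤ (Gamma0 N) A →+ parabolicHoms ℤ (Gamma0 (N * q)) A := opPar (resDSys N q) A

noncomputable def coresP (hqN : ¬ q ∣ N) :
    parabolicHoms ℤ (Gamma0 (N * q)) A →+ parabolicHoms ℤ (Gamma0 N) A := opPar (coresSys' hqN) A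

noncomputable def coresDP (hqN : ¬ q ∣ N) :
    parabolicHoms ℤ (Gamma0 (N * q)) A →+ parabolicHoms ℤ (Gamma0 N) A := opPar (coresDSys' hqN) A

/-- `T_ℓ` on the parabolic lattice of level `N` (`ℓ ∤ N`) -/
noncomputable def heckeP {ℓ : ℕ} [Fact ℓ.Prime] (hℓN : ¬ ℓ ∣ N) :
    parabolicHoms ℤ (Gamma0 N) A →+ parabolicHoms ℤ (Gamma0 N) A := opPar (heckeSys hℓN) A

variable {A}

omit [Fact q.Prime] in
@[simp] theorem resP_coe (φ : parabolicHoms ℤ (Gamma0 N) A) :
    ((resP A N q φ : parabolicHoms ℤ (Gamma0 (N * q)) A) : Additive (Gamma0 (N * q)) →+ A)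
      = res A N q φ.1 := rfl

@[simp] theorem resDP_coe (φ : parabolicHoms ℤ (Gamma0 N) A) :
    ((resDP A N q φ : parabolicHoms ℤ (Gamma0 (N * q)) A) : Additive (Gamma0 (N * q)) →+ A)
      = resD A N q φ.1 := rfl

@[simp] theorem coresP_coe (hqN : ¬ q ∣ N) (ψ : parabolicHoms ℤ (Gamma0 (N * q)) A) :
    ((coresP A hqN ψ : parabolicHoms ℤ (Gamma0 N) A) : Additive (Gamma0 N) →+ A)
      = cores A hqN ψ.1 := rfl

@[simp] theorem coresDP_coe (hqN : ¬ q ∣ N) (ψ : parabolicHoms ℤ (Gamma0 (N * q)) A) :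
    ((coresDP A hqN ψ : parabolicHoms ℤ (Gamma0 N) A) : Additive (Gamma0 N) →+ A)
      = coresD A hqN ψ.1 := rfl

@[simp] theorem heckeP_coe {ℓ : ℕ} [Fact ℓ.Prime] (hℓN : ¬ ℓ ∣ N)
    (φ : parabolicHoms ℤ (Gamma0 N) A) :
    ((heckeP A hℓN φ : parabolicHoms ℤ (Gamma0 N) A) : Additive (Gamma0 N) →+ A)
      = cohT hℓN A φ.1 := by
  show (heckeSys hℓN).op A φ.1 = _
  rw [heckeSys_op]

variable (A)

/-- **`α = (res, res_δ) : Λ_N × Λ_N → Λ_{N q}`** -/
noncomputable def alphaP (N q : ℕ) [Fact q.Prime] :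
    parabolicHoms ℤ (Gamma0 N) A × parabolicHoms ℤ (Gamma0 N) A →+
      parabolicHoms ℤ (Gamma0 (N * q)) A :=
  (resP A N q).coprod (resDP A N q)

/-- **`β = (cores, cores_δ) : Λ_{N q} → Λ_N × Λ_N`** -/
noncomputable def betaP (hqN : ¬ q ∣ N) :
    parabolicHoms ℤ (Gamma0 (N * q)) A →+
      parabolicHoms ℤ (Gamma0 N) A × parabolicHoms ℤ (Gamma0 N) A :=
  (coresP A hqN).prod (coresDP A hqN)

variable {A}

theorem alphaP_apply (x y : parabolicHoms ℤ (Gamma0 N) A) :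
    alphaP A N q (x, y) = resP A N q x + resDP A N q y := rfl

theorem betaP_apply (hqN : ¬ q ∣ N) (z : parabolicHoms ℤ (Gamma0 (N * q)) A) :
    betaP A hqN z = (coresP A hqN z, coresDP A hqN z) := rfl

/-- **`β ∘ α = ((q+1), T_q; T_q, (q+1))`** on `Λ_N × Λ_N` -/
theorem betaP_alphaP (hqN : ¬ q ∣ N) (x y : parabolicHoms ℤ (Gamma0 N) A) :
    betaP A hqN (alphaP A N q (x, y))
      = ((q + 1) • x + heckeP A hqN y, heckeP A hqN x + (q + 1) • y) := by
  rw [alphaP_apply, betaP_apply, map_add, map_add]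
  refine Prod.ext ?_ ?_
  · apply Subtype.ext
    show cores A hqN (res A N q x.1) + cores A hqN (resD A N q y.1)
      = (q + 1) • x.1 + ((heckeP A hqN y : parabolicHoms ℤ (Gamma0 N) A) : Additive (Gamma0 N) →+ A)
    rw [cores_comp_res, cores_comp_resD, heckeP_coe]
  · apply Subtype.ext
    show coresD A hqN (res A N q x.1) + coresD A hqN (resD A N q y.1)
      = ((heckeP A hqN x : parabolicHoms ℤ (Gamma0 N) A) : Additive (Gamma0 N) →+ A) + (q + 1) • y.1
    rw [coresD_comp_res, coresD_comp_resD, heckeP_coe]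

end Par

end Fermat.Agent.GM.B
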