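import Mathlib
import Fermat.Agent.GM.B.Main
import Fermat.Agent.GM.B.System2
import Fermat.Agent.GM.B.System3

/-!
# GATE-M (B-D): distinctness of Hecke cosets and of the transversal of `Γ₀(N q) \ Γ₀(N)`
-/

set_option autoImplicit false
set_option linter.unusedSectionVars false

open scoped MatrixGroups
open CongruenceSubgroup Matrix Matrix.SpecialLinearGroup ModularCurve.Period
open P2MW.S_ModularForm_heckeT_slash_eq_self_of_mem_Gamma0.ModularForm.HeckeSlashInvariance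
open P2MW.S_ModularForm_heckeT_slash_eq_self_of_mem_Gamma0.ModularForm
open Fermat.Agent.S16_helper49
open Fermat.Agent.GM.Amalgam
open scoped OnePoint

namespace Fermat.Agent.GM.B

section F1

variable {ℓ : ℕ} [Fact ℓ.Prime]

/-- **(F1)** the cosets `SL(2, ℤ) · heckeRep ℓ x`, `x ∈ P¹(𝔽_ℓ)`, are pairwise distinct -/
theorem heckeRep_injective_mod (x y : OnePoint (ZMod ℓ)) (γ : SL(2, ℤ))
    (h : heckeRep ℓ x = embR γ * heckeRep ℓ y) : x = y := by
  have hℓ : ℓ ≠ 0 := (Fact.out : ℓ.Prime).ne_zero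
  have hℓ1 : 1 < ℓ := (Fact.out : ℓ.Prime).one_lt
  have h00 := congrArg (fun M : GL (Fin 2) ℝ => (M : Matrix (Fin 2) (Fin 2) ℝ) 0 0) h
  have h01 := congrArg (fun M : GL (Fin 2) ℝ => (M : Matrix (Fin 2) (Fin 2) ℝ) 0 1) h
  have h10 := congrArg (fun M : GL (Fin 2) ℝ => (M : Matrix (Fin 2) (Fin 2) ℝ) 1 0) h
  have h11 := congrArg (fun M : GL (Fin 2) ℝ => (M : Matrix (Fin 2) (Fin 2) ℝ) 1 1) h
  induction x using OnePoint.rec with
  | infty =>
    induction y using OnePoint.rec with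
    | infty => rfl
    | coe k =>
      exfalso
      simp [hℓ, Matrix.mul_apply, Fin.sum_univ_two] at h10 h11
      -- h10 : γ 1 0 = 0, h11 : 1 = γ 1 0 * k + γ 1 1 * ℓ
      rw [← h10] at h11
      have h2 : ((1 : ℤ) : ℝ) = ((γ 1 1 * ℓ : ℤ) : ℝ) := by push_cast; linarith
      have h3 : (1 : ℤ) = γ 1 1 * ℓ := by exact_mod_cast h2
      have h4 : (ℓ : ℤ) ∣ 1 := Dvd.intro_left (γ 1 1) h3.symm
      have h5 := Int.le_of_dvd one_pos h4
      omega
  | coe j =>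
    induction y using OnePoint.rec with
    | infty =>
      exfalso
      simp [hℓ, Matrix.mul_apply, Fin.sum_univ_two] at h00
      have h2 : ((1 : ℤ) : ℝ) = ((γ 0 0 * ℓ : ℤ) : ℝ) := by push_cast; linarith
      have h3 : (1 : ℤ) = γ 0 0 * ℓ := by exact_mod_cast h2
      have h4 : (ℓ : ℤ) ∣ 1 := Dvd.intro_left (γ 0 0) h3.symm
      have h5 := Int.le_of_dvd one_pos h4
      omega
    | coe k =>
      simp [hℓ, Matrix.mul_apply, Fin.sum_univ_two] at h00 h01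
      -- h00 : 1 = γ 0 0 ; h01 : j.val = γ 0 0 * k.val + γ 0 1 * ℓ
      rw [← h00, one_mul] at h01
      rw [← ZMod.natCast_val j, ← ZMod.natCast_val k] at h01
      have h2 : ((j.val : ℤ) : ℝ) = ((k.val + γ 0 1 * ℓ : ℤ) : ℝ) := by push_cast; linarith
      have h3 : (j.val : ℤ) = k.val + γ 0 1 * ℓ := by exact_mod_cast h2
      have h4 : ((j.val : ℤ) : ZMod ℓ) = ((k.val + γ 0 1 * ℓ : ℤ) : ZMod ℓ) := by rw [h3]
      push_cast at h4
      rw [ZMod.natCast_zmod_val, ZMod.natCast_zmod_val, ZMod.natCast_self, mul_zero, add_zero] at h4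
      rw [h4]

theorem heckeSys_a {N : ℕ} (hℓN : ¬ ℓ ∣ N) (x : OnePoint (ZMod ℓ)) :
    (heckeSys hℓN).a x = heckeRep ℓ x := rfl

theorem heckeSys_σ {N : ℕ} (hℓN : ¬ ℓ ∣ N) (g : Gamma0 N) (x : OnePoint (ZMod ℓ)) :
    (heckeSys hℓN).σ g x = redMatrix ℓ (g : SL(2, ℤ)) • x := rfl

theorem heckeSys_c {N : ℕ} (hℓN : ¬ ℓ ∣ N) (g : Gamma0 N) (x : OnePoint (ZMod ℓ)) :
    (heckeSys hℓN).c g x = cT hℓN g x := rfl

/-- the Hecke cosets are distinct modulo any subgroup of `SL(2, ℤ)` -/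
theorem heckeSys_distinctMod {N : ℕ} (hℓN : ¬ ℓ ∣ N) (Γ : Subgroup SL(2, ℤ)) :
    (heckeSys hℓN).DistinctMod Γ := by
  intro x y γ h
  exact heckeRep_injective_mod x y (γ : SL(2, ℤ)) h

theorem heckeSys_distinct {N : ℕ} (hℓN : ¬ ℓ ∣ N) : (heckeSys hℓN).Distinct :=
  (heckeSys_distinctMod hℓN (Gamma0 N)).distinct

end F1

section Cores

variable {N q : ℕ} [Fact q.Prime] (hqN : ¬ q ∣ N)

/-- the transversal `r_x` of `Γ₀(N q) \ Γ₀(N)` has pairwise distinct cosets -/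
theorem coresSys_distinct (b₀ d₀ : ℤ) (hbd : (q : ℤ) * d₀ - N * b₀ = 1) :
    (coresSys hqN b₀ d₀ hbd).Distinct := by
  unfold coresSys
  refine CosetSys.twist_distinct _ _ _ _ _ _ (heckeSys_distinct hqN) ?_
  intro κ
  refine ⟨degenDelta N q κ, ?_⟩
  have h := dlt_rel_degenDelta (N := N) κ
  rw [eq_inv_mul_iff_mul_eq, ← mul_assoc, h, mul_assoc, mul_inv_cancel, mul_one]

theorem coresSys'_distinct : (coresSys' hqN).Distinct := coresSys_distinct hqN _ _ _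

/-- the representatives of `cores` are `emb (r_x)` -/
theorem coresSys_a (b₀ d₀ : ℤ) (hbd : (q : ℤ) * d₀ - N * b₀ = 1) (x : OnePoint (ZMod q)) :
    (coresSys hqN b₀ d₀ hbd).a x = embR ((rC N q b₀ d₀ hbd x : Gamma0 N) : SL(2, ℤ)) := by
  unfold coresSys
  refine (CosetSys.twist_a (heckeSys hqN) embR_injective _ _ _ _ x).trans ?_
  rw [heckeSys_a, mul_assoc, inv_mul_eq_iff_eq_mul]
  exact (dlt_mul_rC N q b₀ d₀ hbd x).symm

end Cores

end Fermat.Agent.GM.B
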