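import Mathlib
import Fermat.Agent.GM.B.Main
import Fermat.Agent.GM.B.System2

/-!
# GATE-M (B-W): the Atkin–Lehner operator `w_q` on `Hom(Γ₀(N q), A)`

`W = r₀ δ = (q, b₀; N q, q d₀)` (`q d₀ - N b₀ = 1`, the Bézout pair of `GM/B/Main`), of
determinant `q`, normalises `Γ₀(N q)`.

* `wHom hqN : Γ₀(N q) →* Γ₀(N q)`, `g ↦ W g W⁻¹ = r₀ (δ g δ⁻¹) r₀⁻¹`;
* `wSys`, `wOp A hqN`; `wOp_wOp : w (w z) = z`;
* `wOp_res : w (res φ) = resD φ`, `wOp_resD : w (resD φ) = res φ`;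
* `cores_wOp : cores (w z) = coresD z`, `coresD_wOp : coresD (w z) = cores z`.
-/

set_option autoImplicit false
set_option linter.unusedSectionVars false

open scoped MatrixGroups
open CongruenceSubgroup Matrix Matrix.SpecialLinearGroup ModularCurve.Period
open P2MW.S_ModularForm_heckeT_slash_eq_self_of_mem_Gamma0.ModularForm.HeckeSlashInvariance
open P2MW.S_ModularForm_heckeT_slash_eq_self_of_mem_Gamma0.ModularForm
open Fermat.Agent.S16_helper49
open Fermat.Agent.GM.Amalgam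
open scoped OnePoint

namespace Fermat.Agent.GM.B

variable {N q : ℕ} [Fact q.Prime]

/-- `α_0 δ = q` -/
theorem heckeRep_zero_mul_dlt :
    heckeRep q (((0 : ZMod q)) : OnePoint (ZMod q)) * dlt q = zq q := by
  have hq : q ≠ 0 := q_ne_zero'
  rw [heckeRep_coe]
  ext a b
  fin_cases a <;> fin_cases b <;>
    simp [hq, zq, Matrix.mul_apply, Fin.sum_univ_two, Matrix.natCast_apply]

section W

variable (hqN : ¬ q ∣ N)

/-- `r₀ = (1, b₀; N, q d₀) ∈ Γ₀(N)` -/
noncomputable def rZero : Gamma0 N :=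
  rC N q (bez hqN).1 (bez hqN).2 (bez_spec hqN) (((0 : ZMod q)) : OnePoint (ZMod q))

/-- `γ₀ = (q, b₀; N, d₀) ∈ Γ₀(N)` -/
noncomputable def gZero : Gamma0 N :=
  gC N q (bez hqN).1 (bez hqN).2 (bez_spec hqN) (((0 : ZMod q)) : OnePoint (ZMod q))

/-- the Atkin–Lehner matrix `W = r₀ δ = (q, b₀; N q, q d₀)` -/
noncomputable def wMat : GL (Fin 2) ℝ := embR ((rZero hqN : Gamma0 N) : SL(2, ℤ)) * dlt q

/-- `δ W = q γ₀`, i.e. `W = diag(1, q) γ₀` -/
theorem dlt_mul_wMat :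
    dlt q * wMat hqN = zq q * embR ((gZero hqN : Gamma0 N) : SL(2, ℤ)) := by
  have hA := dlt_mul_rC N q (bez hqN).1 (bez hqN).2 (bez_spec hqN)
    (((0 : ZMod q)) : OnePoint (ZMod q))
  unfold wMat rZero gZero
  rw [← mul_assoc, hA, mul_assoc, heckeRep_zero_mul_dlt, zq_comm]

/-- `δ (r₀ (δ g δ⁻¹) r₀⁻¹) = (γ₀ g γ₀⁻¹) δ` -/
theorem wHom_rel (g : Gamma0 (N * q)) :
    dlt q * embR ((rZero hqN * degenDelta N q g * (rZero hqN)⁻¹ : Gamma0 N) : SL(2, ℤ))
      = embR ((gZero hqN * degenOne N q g * (gZero hqN)⁻¹ : Gamma0 N) : SL(2, ℤ)) * dlt q := by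
  have h1 := dlt_mul_wMat hqN
  have h2 := dlt_rel_degenDelta (N := N) g
  have e1 : embR ((rZero hqN : Gamma0 N) : SL(2, ℤ))
      = (dlt q)⁻¹ * (zq q * embR ((gZero hqN : Gamma0 N) : SL(2, ℤ))) * (dlt q)⁻¹ := by
    rw [eq_mul_inv_iff_mul_eq, eq_inv_mul_iff_mul_eq, ← mul_assoc, mul_assoc]
    exact h1
  have e2 : embR ((degenDelta N q g : Gamma0 N) : SL(2, ℤ))
      = dlt q * embR (g : SL(2, ℤ)) * (dlt q)⁻¹ := by
    rw [eq_mul_inv_iff_mul_eq]; exact h2.symm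
  have hz : ∀ X : GL (Fin 2) ℝ, zq q * X * (zq q)⁻¹ = X := fun X => by
    rw [zq_comm, mul_inv_cancel_right]
  simp only [Subgroup.coe_mul, Subgroup.coe_inv, map_mul, map_inv, degenOne_coe]
  rw [e1, e2]
  calc _ = zq q * (embR ((gZero hqN : Gamma0 N) : SL(2, ℤ)) * embR (g : SL(2, ℤ)) *
        (embR ((gZero hqN : Gamma0 N) : SL(2, ℤ)))⁻¹) * (zq q)⁻¹ * dlt q := by group
    _ = _ := by rw [hz]

/-- **conjugation by `W`** as an endomorphism of `Γ₀(N q)` -/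
noncomputable def wHom : Gamma0 (N * q) →* Gamma0 (N * q) :=
  MonoidHom.codRestrict
    ((Gamma0 N).subtype.comp
      ((MulAut.conj (rZero hqN)).toMonoidHom.comp (degenDelta N q)))
    (Gamma0 (N * q))
    (fun g => by
      have h := wHom_rel hqN g
      exact mem_Gamma0_mul_of_dlt_rel _ _ (SetLike.coe_mem _) h)

theorem wHom_coe (g : Gamma0 (N * q)) :
    ((wHom hqN g : Gamma0 (N * q)) : SL(2, ℤ))
      = ((rZero hqN * degenDelta N q g * (rZero hqN)⁻¹ : Gamma0 N) : SL(2, ℤ)) := rfl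

theorem wMat_rel (g : Gamma0 (N * q)) :
    wMat hqN * embR (g : SL(2, ℤ)) = embR ((wHom hqN g : Gamma0 (N * q)) : SL(2, ℤ)) * wMat hqN := by
  have h2 := dlt_rel_degenDelta (N := N) g
  rw [wHom_coe]
  unfold wMat
  simp only [Subgroup.coe_mul, Subgroup.coe_inv, map_mul, map_inv]
  rw [mul_assoc, h2]
  group

/-- the coset system of the Atkin–Lehner operator -/
noncomputable def wSys : CosetSys embR (Gamma0 (N * q)) (Gamma0 (N * q)) :=
  CosetSys.single embR (wMat hqN) (wHom hqN) (wMat_rel hqN)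

/-- **the Atkin–Lehner operator** `w_q` on `Hom(Γ₀(N q), A)` -/
noncomputable def wOp (A : Type*) [AddCommGroup A] :
    (Additive (Gamma0 (N * q)) →+ A) →+ (Additive (Gamma0 (N * q)) →+ A) := (wSys hqN).op A

theorem wOp_apply {A : Type*} [AddCommGroup A] (z : Additive (Gamma0 (N * q)) →+ A)
    (g : Gamma0 (N * q)) :
    wOp hqN A z (Additive.ofMul g) = z (Additive.ofMul (wHom hqN g)) :=
  CosetSys.single_op_apply _ _ _ z g

/-! ### `W² = q · m`, `m ∈ Γ₀(N q)` -/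

theorem rZero_coe : ((rZero hqN : Gamma0 N) : SL(2, ℤ))
    = repC N q (bez hqN).1 (bez hqN).2 (bez_spec hqN) 0 := by
  show repC N q (bez hqN).1 (bez hqN).2 (bez_spec hqN) ((0 : ZMod q)).val = _
  rw [ZMod.val_zero]

/-- `m = r₀ γ₀ = (q + N b₀, b₀ (1 + d₀); N q (1 + d₀), N b₀ + q d₀²)`, `W² = q m` -/
noncomputable def wSq : SL(2, ℤ) :=
  mkZ ((q : ℤ) + N * (bez hqN).1) ((bez hqN).1 * (1 + (bez hqN).2))
    ((N : ℤ) * q * (1 + (bez hqN).2)) ((N : ℤ) * (bez hqN).1 + q * (bez hqN).2 ^ 2)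
    (by linear_combination ((q : ℤ) * (bez hqN).2 - N * (bez hqN).1 + 1) * bez_spec hqN)

theorem wSq_mem : wSq hqN ∈ Gamma0 (N * q) :=
  mem_Gamma0_of_dvd ⟨1 + (bez hqN).2, by simp [wSq]⟩

theorem wMat_mul_wMat : wMat hqN * wMat hqN = zq q * embR (wSq hqN) := by
  have hq : q ≠ 0 := q_ne_zero'
  unfold wMat
  rw [rZero_coe]
  ext a b
  fin_cases a <;> fin_cases b <;>
    simp [hq, zq, wSq, repC, Matrix.mul_apply, Fin.sum_univ_two, Matrix.natCast_apply] <;> ring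

variable {A : Type*} [AddCommGroup A]

/-- **`w_q² = 1`** on `Hom(Γ₀(N q), A)` -/
theorem wOp_wOp (z : Additive (Gamma0 (N * q)) →+ A) : wOp hqN A (wOp hqN A z) = z := by
  unfold wOp
  rw [← CosetSys.op_comp]
  rw [CosetSys.op_eq_card_smul ((wSys hqN).comp (wSys hqN)) embR_injective (zq q) (zq_comm q)
    (fun _ : Unit × Unit => (⟨wSq hqN, wSq_mem hqN⟩ : Gamma0 (N * q))) ?_ z]
  · show Fintype.card (Unit × Unit) • z = z
    simp
  · intro p
    exact wMat_mul_wMat hqN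

/-- **`w_q ∘ res = res_δ`** -/
theorem wOp_res (φ : Additive (Gamma0 N) →+ A) : wOp hqN A (res A N q φ) = resD A N q φ := by
  unfold wOp res resD
  rw [← CosetSys.op_comp]
  refine CosetSys.op_eq_of_equiv (resDSys N q) ((resSys N q).comp (wSys hqN)) embR_injective
    (Equiv.punitProd Unit).symm 1 (fun x => by rw [one_mul, mul_one]) (fun _ => rZero hqN) ?_ ?_ φ
  · intro _
    show 1 * wMat hqN = 1 * embR ((rZero hqN : Gamma0 N) : SL(2, ℤ)) * dlt q
    unfold wMat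
    group
  · intro g _
    rfl

/-- **`w_q ∘ res_δ = res`** -/
theorem wOp_resD (φ : Additive (Gamma0 N) →+ A) : wOp hqN A (resD A N q φ) = res A N q φ := by
  rw [← wOp_res hqN, wOp_wOp]

/-! ### `cores ∘ w_q = cores_δ` -/

/-- `κ_∞ = r₀ γ'_∞⁻¹ ∈ Γ₀(N q)` -/
noncomputable def kapInf : SL(2, ℤ) :=
  mkZ ((q : ℤ) - N * (bez hqN).1) ((bez hqN).1 * (bez hqN).2 - (bez hqN).1)
    ((N : ℤ) * q * (1 - (bez hqN).2)) ((q : ℤ) * (bez hqN).2 ^ 2 - N * (bez hqN).1)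
    (by linear_combination ((q : ℤ) * (bez hqN).2 - N * (bez hqN).1 + 1) * bez_spec hqN)

theorem kapInf_mem : kapInf hqN ∈ Gamma0 (N * q) :=
  mem_Gamma0_of_dvd ⟨1 - (bez hqN).2, by simp [kapInf]⟩

/-- `κ_x = r₀ γ_x γ'_x⁻¹ ∈ Γ₀(N q)` -/
noncomputable def kap (x : OnePoint (ZMod q)) : Gamma0 (N * q) :=
  x.elim ⟨kapInf hqN, kapInf_mem hqN⟩ (fun _ => ⟨wSq hqN, wSq_mem hqN⟩)

theorem kap_mul (x : OnePoint (ZMod q)) :
    ((kap hqN x : Gamma0 (N * q)) : SL(2, ℤ))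
        * ((gD N q (bez hqN).1 (bez hqN).2 (bez_spec hqN) x : Gamma0 N) : SL(2, ℤ))
      = ((rZero hqN : Gamma0 N) : SL(2, ℤ))
        * ((gC N q (bez hqN).1 (bez hqN).2 (bez_spec hqN) x : Gamma0 N) : SL(2, ℤ)) := by
  have hbd := bez_spec hqN
  rw [rZero_coe]
  induction x using OnePoint.rec with
  | infty =>
    show kapInf hqN * gamD N q (bez hqN).1 (bez hqN).2 (bez_spec hqN)
      = repC N q (bez hqN).1 (bez hqN).2 (bez_spec hqN) 0 * ((1 : Gamma0 N) : SL(2, ℤ))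
    rw [Subgroup.coe_one, mul_one]
    ext a b
    fin_cases a <;> fin_cases b <;>
      simp [kapInf, gamD, repC, Matrix.mul_apply, Fin.sum_univ_two]
    · linear_combination hbd
    · linear_combination ((bez hqN).1) * hbd
    · linear_combination (N : ℤ) * hbd
    · linear_combination ((q : ℤ) * (bez hqN).2) * hbd
  | coe j =>
    show wSq hqN * ((1 : Gamma0 N) : SL(2, ℤ))
      = repC N q (bez hqN).1 (bez hqN).2 (bez_spec hqN) 0
        * gamC N q (bez hqN).1 (bez hqN).2 (bez_spec hqN)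
    rw [Subgroup.coe_one, mul_one]
    ext a b
    fin_cases a <;> fin_cases b <;>
      simp [wSq, gamC, repC, Matrix.mul_apply, Fin.sum_univ_two] <;> ring

theorem wMat_mul_gC (x : OnePoint (ZMod q)) :
    wMat hqN * ((dlt q)⁻¹ * embR ((gC N q (bez hqN).1 (bez hqN).2 (bez_spec hqN) x :
          Gamma0 N) : SL(2, ℤ)))
      = embR ((kap hqN x : Gamma0 (N * q)) : SL(2, ℤ))
        * (1 * embR ((gD N q (bez hqN).1 (bez hqN).2 (bez_spec hqN) x : Gamma0 N) : SL(2, ℤ))) := by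
  have hk := congrArg embR (kap_mul hqN x)
  rw [map_mul, map_mul] at hk
  unfold wMat
  rw [one_mul, hk]
  group

/-- **`cores ∘ w_q = cores_δ`** -/
theorem cores_wOp (z : Additive (Gamma0 (N * q)) →+ A) :
    cores A hqN (wOp hqN A z) = coresD A hqN z := by
  unfold wOp cores coresD coresSys' coresDSys' coresSys coresDSys wSys
  exact CosetSys.op_single_comp_twist (heckeSys hqN) embR_injective
    (dlt q)⁻¹ (gC N q (bez hqN).1 (bez hqN).2 (bez_spec hqN)) _ _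
    1 (gD N q (bez hqN).1 (bez hqN).2 (bez_spec hqN)) _ _
    (wMat hqN) (wHom hqN) (wMat_rel hqN) (kap hqN) (wMat_mul_gC hqN) z

/-- **`cores_δ ∘ w_q = cores`** -/
theorem coresD_wOp (z : Additive (Gamma0 (N * q)) →+ A) :
    coresD A hqN (wOp hqN A z) = cores A hqN z := by
  rw [← cores_wOp hqN, wOp_wOp]

/-- `w_q` on the parabolic lattice -/
noncomputable def wP (A : Type*) [AddCommGroup A] :
    parabolicHoms ℤ (Gamma0 (N * q)) A →+ parabolicHoms ℤ (Gamma0 (N * q)) A :=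
  opPar (wSys hqN) A

@[simp] theorem wP_coe (z : parabolicHoms ℤ (Gamma0 (N * q)) A) :
    ((wP hqN A z : parabolicHoms ℤ (Gamma0 (N * q)) A) : Additive (Gamma0 (N * q)) →+ A)
      = wOp hqN A z.1 := rfl

theorem wP_wP (z : parabolicHoms ℤ (Gamma0 (N * q)) A) : wP hqN A (wP hqN A z) = z :=
  Subtype.ext (wOp_wOp hqN z.1)

theorem coresP_wP (z : parabolicHoms ℤ (Gamma0 (N * q)) A) :
    coresP A hqN (wP hqN A z) = coresDP A hqN z :=
  Subtype.ext (cores_wOp hqN z.1)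

theorem coresDP_wP (z : parabolicHoms ℤ (Gamma0 (N * q)) A) :
    coresDP A hqN (wP hqN A z) = coresP A hqN z :=
  Subtype.ext (coresD_wOp hqN z.1)

theorem wP_resP (x : parabolicHoms ℤ (Gamma0 N) A) :
    wP hqN A (resP A N q x) = resDP A N q x :=
  Subtype.ext (wOp_res hqN x.1)

theorem wP_resDP (x : parabolicHoms ℤ (Gamma0 N) A) :
    wP hqN A (resDP A N q x) = resP A N q x :=
  Subtype.ext (wOp_resD hqN x.1)

end W

end Fermat.Agent.GM.B
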