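import Mathlib
import Fermat.Agent.GM.B.Distinct

/-!
# GATE-M (B4, part 1): `res` and `cores` commute with `T_ℓ` (`ℓ ∤ N q`)
-/

set_option autoImplicit false
set_option linter.unusedSectionVars false
set_option linter.unreachableTactic false
set_option linter.unusedTactic false

open scoped MatrixGroups
open CongruenceSubgroup Matrix Matrix.SpecialLinearGroup ModularCurve.Period
open P2MW.S_ModularForm_heckeT_slash_eq_self_of_mem_Gamma0.ModularForm.HeckeSlashInvariance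
open P2MW.S_ModularForm_heckeT_slash_eq_self_of_mem_Gamma0.ModularForm
open Fermat.Agent.S16_helper49
open Fermat.Agent.GM.Amalgam
open scoped OnePoint

namespace Fermat.Agent.GM.B

variable {ℓ : ℕ} [Fact ℓ.Prime]

/-- **(F3)** in a Hecke relation `α_x h = c α_{x'}` the lower left entries of `h` and `c` differ by
factors in `{1, ℓ}` -/
theorem heckeRep_rel_lower (x x' : OnePoint (ZMod ℓ)) (h c : SL(2, ℤ))
    (hrel : heckeRep ℓ x * embR h = embR c * heckeRep ℓ x') :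
    ∃ u v : ℤ, (u = 1 ∨ u = ℓ) ∧ (v = 1 ∨ v = ℓ) ∧ c 1 0 * u = v * h 1 0 := by
  have hℓ : ℓ ≠ 0 := (Fact.out : ℓ.Prime).ne_zero
  have h10 := congrArg (fun M : GL (Fin 2) ℝ => (M : Matrix (Fin 2) (Fin 2) ℝ) 1 0) hrel
  induction x using OnePoint.rec with
  | infty =>
    induction x' using OnePoint.rec with
    | infty =>
      refine ⟨ℓ, 1, Or.inr rfl, Or.inl rfl, ?_⟩
      simp [hℓ, Matrix.mul_apply, Fin.sum_univ_two] at h10
      first
        | (have h2 : ((c 1 0 * ℓ : ℤ) : ℝ) = ((1 * h 1 0 : ℤ) : ℝ) := by push_cast; linarith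
           exact_mod_cast h2)
        | linarith
    | coe k =>
      refine ⟨1, 1, Or.inl rfl, Or.inl rfl, ?_⟩
      simp [hℓ, Matrix.mul_apply, Fin.sum_univ_two] at h10
      first
        | (have h2 : ((c 1 0 * 1 : ℤ) : ℝ) = ((1 * h 1 0 : ℤ) : ℝ) := by push_cast; linarith
           exact_mod_cast h2)
        | linarith
  | coe j =>
    induction x' using OnePoint.rec with
    | infty =>
      refine ⟨ℓ, ℓ, Or.inr rfl, Or.inr rfl, ?_⟩
      simp [hℓ, Matrix.mul_apply, Fin.sum_univ_two] at h10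
      first
        | (have h2 : ((c 1 0 * ℓ : ℤ) : ℝ) = ((ℓ * h 1 0 : ℤ) : ℝ) := by push_cast; linarith
           exact_mod_cast h2)
        | linarith
    | coe k =>
      refine ⟨1, ℓ, Or.inl rfl, Or.inr rfl, ?_⟩
      simp [hℓ, Matrix.mul_apply, Fin.sum_univ_two] at h10
      first
        | (have h2 : ((c 1 0 * 1 : ℤ) : ℝ) = ((ℓ * h 1 0 : ℤ) : ℝ) := by push_cast; linarith
           exact_mod_cast h2)
        | linarith

section Cores

variable {N q : ℕ} [Fact q.Prime]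

theorem not_dvd_of_not_dvd_mul (hℓ : ¬ ℓ ∣ N * q) : ¬ ℓ ∣ N := fun h => hℓ (Dvd.dvd.mul_right h q)

theorem isCoprime_of_not_dvd_mul (hℓ : ¬ ℓ ∣ N * q) : IsCoprime (q : ℤ) (ℓ : ℤ) := by
  have hne : q ≠ ℓ := fun h => hℓ (h ▸ dvd_mul_left q N)
  exact Nat.isCoprime_iff_coprime.mpr ((Nat.coprime_primes Fact.out Fact.out).mpr hne)

/-- **detection of `Γ₀(N q)`**: if `α_x h = c α_{x'}` with `h ∈ Γ₀(N)` and `c ∈ Γ₀(N q)` then
`h ∈ Γ₀(N q)` -/
theorem mem_Gamma0_mul_of_rel (hqN : ¬ q ∣ N) (hℓ : ¬ ℓ ∣ N * q)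
    (x x' : OnePoint (ZMod ℓ)) (h c : SL(2, ℤ))
    (hrel : heckeRep ℓ x * embR h = embR c * heckeRep ℓ x')
    (hh : h ∈ Gamma0 N) (hc : c ∈ Gamma0 (N * q)) : h ∈ Gamma0 (N * q) := by
  obtain ⟨u, v, -, hv, huv⟩ := heckeRep_rel_lower x x' h c hrel
  have hcop := isCoprime_of_not_dvd_mul hℓ
  have hcN : ((N * q : ℕ) : ℤ) ∣ c 1 0 := dvd_of_mem_Gamma0 (⟨c, hc⟩ : Gamma0 (N * q))
  have hq : (q : ℤ) ∣ c 1 0 := by
    refine Dvd.dvd.trans ?_ hcN
    push_cast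
    exact dvd_mul_left _ _
  have hq2 : (q : ℤ) ∣ v * h 1 0 := by rw [← huv]; exact Dvd.dvd.mul_right hq u
  have hq3 : (q : ℤ) ∣ h 1 0 := by
    rcases hv with rfl | rfl
    · simpa using hq2
    · exact hcop.dvd_of_dvd_mul_left hq2
  have hN : (N : ℤ) ∣ h 1 0 := dvd_of_mem_Gamma0 (⟨h, hh⟩ : Gamma0 N)
  have hNq : IsCoprime (N : ℤ) (q : ℤ) := by
    have hcopNat : Nat.Coprime q N := (Nat.Prime.coprime_iff_not_dvd Fact.out).mpr hqN
    exact (Nat.isCoprime_iff_coprime.mpr hcopNat).symm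
  apply mem_Gamma0_of_dvd
  push_cast
  exact hNq.mul_dvd hN hq3

theorem Gamma0_mul_le : Gamma0 (N * q) ≤ Gamma0 N := by
  intro g hg
  have h1 : ((N * q : ℕ) : ℤ) ∣ g 1 0 := dvd_of_mem_Gamma0 (⟨g, hg⟩ : Gamma0 (N * q))
  apply mem_Gamma0_of_dvd
  refine Dvd.dvd.trans ?_ h1
  push_cast
  exact dvd_mul_right _ _

variable {A : Type*} [AddCommGroup A]

/-- `S₁ = T_ℓ^{(N q)}` followed by `cores` has distinct cosets -/
theorem heckeSys_comp_coresSys'_distinct (hqN : ¬ q ∣ N) (hℓ : ¬ ℓ ∣ N * q) :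
    ((heckeSys hℓ).comp (coresSys' hqN)).Distinct := by
  refine CosetSys.comp_distinct_of_rel (heckeSys hℓ) (coresSys' hqN) embR_injective
    Gamma0_mul_le (rC N q (bez hqN).1 (bez hqN).2 (bez_spec hqN)) (coresSys_a hqN _ _ _)
    (heckeSys_distinctMod hℓ (Gamma0 N)) (coresSys'_distinct hqN) ?_
  intro h (i : OnePoint (ZMod ℓ))
  refine ⟨(redMatrix ℓ (h : SL(2, ℤ)) • i : OnePoint (ZMod ℓ)), cT (not_dvd_of_not_dvd_mul hℓ) h i,
    cT_rel (not_dvd_of_not_dvd_mul hℓ) h i, ?_⟩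
  intro hc
  exact mem_Gamma0_mul_of_rel hqN hℓ i _ _ _ (cT_rel (not_dvd_of_not_dvd_mul hℓ) h i) h.2 hc

/-- `S₂ = cores` followed by `T_ℓ^{(N)}` has distinct cosets -/
theorem coresSys'_comp_heckeSys_distinct (hqN : ¬ q ∣ N) (hℓ : ¬ ℓ ∣ N * q) :
    ((coresSys' hqN).comp (heckeSys (not_dvd_of_not_dvd_mul hℓ))).Distinct :=
  CosetSys.comp_distinct_of_inner (coresSys' hqN) (heckeSys (not_dvd_of_not_dvd_mul hℓ))
    Gamma0_mul_le (rC N q (bez hqN).1 (bez hqN).2 (bez_spec hqN)) (coresSys_a hqN _ _ _)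
    (coresSys'_distinct hqN) (heckeSys_distinct _)

theorem coresSys'_a_infty (hqN : ¬ q ∣ N) : (coresSys' hqN).a (∞ : OnePoint (ZMod q)) = 1 := by
  unfold coresSys'
  rw [coresSys_a]
  show embR ((1 : Gamma0 N) : SL(2, ℤ)) = 1
  rw [Subgroup.coe_one, map_one]

/-- **(iii) `cores` commutes with `T_ℓ`** (`ℓ ∤ N q`) -/
theorem cores_cohT (hqN : ¬ q ∣ N) (hℓ : ¬ ℓ ∣ N * q) (ψ : Additive (Gamma0 (N * q)) →+ A) :
    cores A hqN (cohT hℓ A ψ) = cohT (not_dvd_of_not_dvd_mul hℓ) A (cores A hqN ψ) := by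
  have hℓN : ¬ ℓ ∣ N := not_dvd_of_not_dvd_mul hℓ
  rw [← heckeSys_op, ← heckeSys_op]
  unfold cores
  rw [← CosetSys.op_comp, ← CosetSys.op_comp]
  symm
  refine CosetSys.op_eq_of_contained ((heckeSys hℓ).comp (coresSys' hqN))
    ((coresSys' hqN).comp (heckeSys hℓN)) embR_injective
    (heckeSys_comp_coresSys'_distinct hqN hℓ) (coresSys'_comp_heckeSys_distinct hqN hℓ)
    (Fintype.card_congr (Equiv.prodComm (OnePoint (ZMod ℓ)) (OnePoint (ZMod q))))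
    (fun p : OnePoint (ZMod ℓ) × OnePoint (ZMod q) =>
      (((coresSys' hqN).σ (cT hℓN (rC N q (bez hqN).1 (bez hqN).2 (bez_spec hqN) p.2) p.1)
          (∞ : OnePoint (ZMod q)) : OnePoint (ZMod q)),
        (redMatrix ℓ ((rC N q (bez hqN).1 (bez hqN).2 (bez_spec hqN) p.2 : Gamma0 N) : SL(2, ℤ))
          • p.1 : OnePoint (ZMod ℓ))))
    1 (fun x => by rw [one_mul, mul_one])
    (fun p : OnePoint (ZMod ℓ) × OnePoint (ZMod q) =>
      ((coresSys' hqN).c (cT hℓN (rC N q (bez hqN).1 (bez hqN).2 (bez_spec hqN) p.2) p.1)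
          (∞ : OnePoint (ZMod q)))⁻¹)
    ?_ ψ
  rintro ⟨(x : OnePoint (ZMod ℓ)), (y : OnePoint (ZMod q))⟩
  have h1 := cT_rel hℓN (rC N q (bez hqN).1 (bez hqN).2 (bez_spec hqN) y) x
  have h2 := (coresSys' hqN).rel (cT hℓN (rC N q (bez hqN).1 (bez hqN).2 (bez_spec hqN) y) x)
    (∞ : OnePoint (ZMod q))
  rw [coresSys'_a_infty, one_mul] at h2
  refine (CosetSys.comp_a (coresSys' hqN) (heckeSys hℓN) _ _).trans ?_
  refine Eq.trans ?_ (congrArg (fun t => 1 * embR (((((coresSys' hqN).c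
    (cT hℓN (rC N q (bez hqN).1 (bez hqN).2 (bez_spec hqN) y) x)
      (∞ : OnePoint (ZMod q)))⁻¹ : Gamma0 (N * q)) : SL(2, ℤ))) * t)
    (CosetSys.comp_a (heckeSys hℓ) (coresSys' hqN) x y).symm)
  have h4 : (heckeSys hℓ).a x = heckeRep ℓ x := rfl
  have h5 : ∀ x' : OnePoint (ZMod ℓ), (heckeSys hℓN).a x' = heckeRep ℓ x' := fun _ => rfl
  rw [h4, h5, one_mul, Subgroup.coe_inv, map_inv, eq_inv_mul_iff_mul_eq, ← mul_assoc, ← h2]
  have h3 : (coresSys' hqN).a y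
      = embR ((rC N q (bez hqN).1 (bez hqN).2 (bez_spec hqN) y : Gamma0 N) : SL(2, ℤ)) :=
    coresSys_a hqN _ _ _ y
  rw [h3]
  exact h1.symm

theorem resSys_a (u : Unit) : (resSys N q).a u = 1 := rfl

/-- **(i) `res` commutes with `T_ℓ`** (`ℓ ∤ N q`) -/
theorem res_cohT (hℓ : ¬ ℓ ∣ N * q) (φ : Additive (Gamma0 N) →+ A) :
    res A N q (cohT (not_dvd_of_not_dvd_mul hℓ) A φ) = cohT hℓ A (res A N q φ) := by
  have hℓN : ¬ ℓ ∣ N := not_dvd_of_not_dvd_mul hℓ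
  rw [← heckeSys_op, ← heckeSys_op]
  unfold res
  rw [← CosetSys.op_comp, ← CosetSys.op_comp]
  have hdist : ((heckeSys hℓN).comp (resSys N q)).Distinct := by
    rintro ⟨(x : OnePoint (ZMod ℓ)), (u : Unit)⟩ ⟨(x' : OnePoint (ZMod ℓ)), (u' : Unit)⟩ γ h
    have h1 := (CosetSys.comp_a (heckeSys hℓN) (resSys N q) x u).symm.trans
      (h.trans (congrArg (fun t => embR ((γ : Gamma0 N) : SL(2, ℤ)) * t)
        (CosetSys.comp_a (heckeSys hℓN) (resSys N q) x' u')))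
    simp only [resSys_a, mul_one] at h1
    have hx : x = x' := heckeSys_distinct hℓN x x' γ h1
    subst hx
    rfl
  refine CosetSys.op_eq_of_cosets ((resSys N q).comp (heckeSys hℓ))
    ((heckeSys hℓN).comp (resSys N q)) embR_injective hdist
    (Equiv.prodComm Unit (OnePoint (ZMod ℓ))) 1 (fun x => by rw [one_mul, mul_one])
    (fun _ => 1) ?_ φ
  rintro ⟨(u : Unit), (x : OnePoint (ZMod ℓ))⟩
  refine (CosetSys.comp_a (heckeSys hℓN) (resSys N q) x u).trans ?_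
  refine Eq.trans ?_ (congrArg (fun t => 1 * embR (((1 : Gamma0 N)) : SL(2, ℤ)) * t)
    (CosetSys.comp_a (resSys N q) (heckeSys hℓ) u x).symm)
  have h4 : (heckeSys hℓ).a x = heckeRep ℓ x := rfl
  have h5 : (heckeSys hℓN).a x = heckeRep ℓ x := rfl
  rw [h4, h5]
  simp only [resSys_a, Subgroup.coe_one, map_one, one_mul, mul_one]

end Cores

end Fermat.Agent.GM.B
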