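import Mathlib
import Fermat.Agent.GM.B.EquivCores
import Fermat.Agent.GM.B.AtkinLehner
import Fermat.Agent.GJ.J2.Lattice

/-!
# GATE-M (B4): `α`, `β` commute with `T_ℓ` (`ℓ ∤ N q`), modulo `w_q T_ℓ = T_ℓ w_q`

`res_cohT` (i) and `cores_cohT` (iii) are proved in `EquivCores.lean`.  Given
`(v) : w_q ∘ T_ℓ = T_ℓ ∘ w_q` on `Hom(Γ₀(N q), A)` (helper85, `GM/B5/WT.lean`), the statements
(ii) for `res_δ = w_q ∘ res` and (iv) for `cores_δ = cores ∘ w_q` follow formally, and so do the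
lattice forms `(B4α)`, `(B4β)` in the shape of `GM/End/Plug.lean`.
-/

set_option autoImplicit false
set_option linter.unusedSectionVars false

open scoped MatrixGroups
open CongruenceSubgroup Matrix Matrix.SpecialLinearGroup ModularCurve.Period
open Fermat.Agent.S16_helper49
open Fermat.Agent.GJ.J2.Lat

namespace Fermat.Agent.GM.B

variable {N q : ℕ} [Fact q.Prime]

section Hom

variable {ℓ : ℕ} [Fact ℓ.Prime] {A : Type*} [AddCommGroup A]

/-- **(ii) `res_δ` commutes with `T_ℓ`**, given (v) -/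
theorem resD_cohT_of (hqN : ¬ q ∣ N) (hℓ : ¬ ℓ ∣ N * q)
    (hWT : ∀ z : Additive (Gamma0 (N * q)) →+ A,
      wOp hqN A (cohT hℓ A z) = cohT hℓ A (wOp hqN A z))
    (φ : Additive (Gamma0 N) →+ A) :
    resD A N q (cohT (not_dvd_of_not_dvd_mul hℓ) A φ) = cohT hℓ A (resD A N q φ) := by
  rw [← wOp_res hqN, ← wOp_res hqN, res_cohT hℓ, hWT]

/-- **(iv) `cores_δ` commutes with `T_ℓ`**, given (v) -/
theorem coresD_cohT_of (hqN : ¬ q ∣ N) (hℓ : ¬ ℓ ∣ N * q)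
    (hWT : ∀ z : Additive (Gamma0 (N * q)) →+ A,
      wOp hqN A (cohT hℓ A z) = cohT hℓ A (wOp hqN A z))
    (ψ : Additive (Gamma0 (N * q)) →+ A) :
    coresD A hqN (cohT hℓ A ψ) = cohT (not_dvd_of_not_dvd_mul hℓ) A (coresD A hqN ψ) := by
  rw [← cores_wOp hqN, ← cores_wOp hqN, hWT, cores_cohT hqN hℓ]

end Hom

/-! ### the lattice forms -/

section Lattice

variable [NeZero N] [NeZero (N * q)]

/-- `latT` at a prime not dividing the level is the cohomological `T_l` (twin of helper35's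
`coe_latT_of_not_dvd`) -/
theorem coe_latT_eq_cohT {M : ℕ} [NeZero M] (l : Nat.Primes) [Fact (l : ℕ).Prime]
    (h : ¬ (l : ℕ) ∣ M) (x : Lam M) :
    ((latT M l x : Lam M) : Additive (Gamma0 M) →+ ℤ) =
      cohT h ℤ (x : Additive (Gamma0 M) →+ ℤ) := by
  rw [coe_latT, cohGen_of_not_dvd M ℤ l h]

/-- **(B4α)** in the shape of `GM/End/Plug.lean`, given (v) -/
theorem alphaP_latT_of (hqN : ¬ q ∣ N) (l : Nat.Primes) [Fact (l : ℕ).Prime]
    (hl : ¬ (l : ℕ) ∣ N * q)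
    (hWT : ∀ z : Additive (Gamma0 (N * q)) →+ ℤ,
      wOp hqN ℤ (cohT hl ℤ z) = cohT hl ℤ (wOp hqN ℤ z))
    (x y : Lam N) :
    alphaP ℤ N q (latT N l x, latT N l y) = latT (N * q) l (alphaP ℤ N q (x, y)) := by
  have hlN : ¬ (l : ℕ) ∣ N := not_dvd_of_not_dvd_mul hl
  apply Subtype.ext
  rw [coe_latT_eq_cohT l hl, alphaP_apply, alphaP_apply]
  show res ℤ N q ((latT N l x : Lam N) : Additive (Gamma0 N) →+ ℤ)
      + resD ℤ N q ((latT N l y : Lam N) : Additive (Gamma0 N) →+ ℤ)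
    = cohT hl ℤ (res ℤ N q (x : Additive (Gamma0 N) →+ ℤ)
      + resD ℤ N q (y : Additive (Gamma0 N) →+ ℤ))
  rw [coe_latT_eq_cohT l hlN, coe_latT_eq_cohT l hlN, res_cohT hl, resD_cohT_of hqN hl hWT, map_add]

/-- **(B4β)** in the shape of `GM/End/Plug.lean`, given (v) -/
theorem betaP_latT_of (hqN : ¬ q ∣ N) (l : Nat.Primes) [Fact (l : ℕ).Prime]
    (hl : ¬ (l : ℕ) ∣ N * q)
    (hWT : ∀ z : Additive (Gamma0 (N * q)) →+ ℤ,
      wOp hqN ℤ (cohT hl ℤ z) = cohT hl ℤ (wOp hqN ℤ z))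
    (z : Lam (N * q)) :
    betaP ℤ hqN (latT (N * q) l z) =
      (latT N l (betaP ℤ hqN z).1, latT N l (betaP ℤ hqN z).2) := by
  have hlN : ¬ (l : ℕ) ∣ N := not_dvd_of_not_dvd_mul hl
  rw [betaP_apply, betaP_apply]
  refine Prod.ext ?_ ?_
  · apply Subtype.ext
    show cores ℤ hqN ((latT (N * q) l z : Lam (N * q)) : Additive (Gamma0 (N * q)) →+ ℤ)
      = ((latT N l (coresP ℤ hqN z) : Lam N) : Additive (Gamma0 N) →+ ℤ)
    rw [coe_latT_eq_cohT l hl, coe_latT_eq_cohT l hlN, cores_cohT hqN hl]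
    rfl
  · apply Subtype.ext
    show coresD ℤ hqN ((latT (N * q) l z : Lam (N * q)) : Additive (Gamma0 (N * q)) →+ ℤ)
      = ((latT N l (coresDP ℤ hqN z) : Lam N) : Additive (Gamma0 N) →+ ℤ)
    rw [coe_latT_eq_cohT l hl, coe_latT_eq_cohT l hlN, coresD_cohT_of hqN hl hWT]
    rfl

end Lattice

end Fermat.Agent.GM.B
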